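import Mathlib

/-!
# Relative dimension of nested subspaces (pure linear algebra), helper68, for S27 (Riemann-Roch core)

`RelQ M N = N / (M ∩ N)`, `relRank M N` its rank, `RelFin M N` finiteness, `relDim M N` its finrank.
-/

set_option autoImplicit false

namespace Fermat.Agent.S17.FND.RR68

open Module

universe u v

variable {K : Type u} {V : Type v} [Field K] [AddCommGroup V] [Module K V]

/-- `N / M` (really `N / (M ⊓ N)`). -/
abbrev RelQ (M N : Submodule K V) : Type v := ↥N ⧸ M.submoduleOf N

/-- rank of `N / M`. -/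
noncomputable def relRank (M N : Submodule K V) : Cardinal.{v} := Module.rank K (RelQ M N)

/-- `N / M` is finite-dimensional. -/
def RelFin (M N : Submodule K V) : Prop := Module.Finite K (RelQ M N)

/-- dimension of `N / M`. -/
noncomputable def relDim (M N : Submodule K V) : ℕ := Module.finrank K (RelQ M N)

theorem relFin_iff_relRank_lt (M N : Submodule K V) :
    RelFin M N ↔ relRank M N < Cardinal.aleph0 :=
  (Module.rank_lt_aleph0_iff (R := K) (M := RelQ M N)).symm

theorem relDim_eq_toNat (M N : Submodule K V) : relDim M N = Cardinal.toNat (relRank M N) := rfl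

/-- workhorse: a surjection from `N` with kernel `M ∩ N` identifies `N / M`. -/
noncomputable def relQEquivOfSurjective {W : Type*} [AddCommGroup W] [Module K W]
    (M N : Submodule K V) (f : ↥N →ₗ[K] W) (hf : Function.Surjective f)
    (hker : LinearMap.ker f = M.submoduleOf N) : RelQ M N ≃ₗ[K] W :=
  (Submodule.quotEquivOfEq _ _ hker.symm).trans (f.quotKerEquivOfSurjective hf)

theorem relRank_of_le {M N : Submodule K V} (h : N ≤ M) : relRank M N = 0 := by
  unfold relRank
  rw [rank_zero_iff_forall_zero]
  intro x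
  induction x using Submodule.Quotient.induction_on with
  | _ x => 
    rw [Submodule.Quotient.mk_eq_zero]
    exact h x.2

theorem relRank_self (M : Submodule K V) : relRank M M = 0 := relRank_of_le le_rfl

/-- additivity along a chain `M ≤ N ≤ P`. -/
theorem relRank_trans {M N P : Submodule K V} (hMN : M ≤ N) (hNP : N ≤ P) :
    relRank M P = relRank M N + relRank N P := by
  classical
  set S : Submodule K ↥P := M.submoduleOf P with hS
  set T : Submodule K ↥P := N.submoduleOf P with hT
  have hST : S ≤ T := fun x hx => hMN hx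
  -- rank (P/S) = rank ((P/S)/(T.map S.mkQ)) + rank (T.map S.mkQ)
  have h1 := Submodule.rank_quotient_add_rank (T.map S.mkQ)
  have h2 : Module.rank K ((↥P ⧸ S) ⧸ T.map S.mkQ) = Module.rank K (↥P ⧸ T) :=
    (Submodule.quotientQuotientEquivQuotient S T hST).rank_eq
  -- T.map S.mkQ ≃ N / M
  let f : ↥N →ₗ[K] ↥P ⧸ S := S.mkQ ∘ₗ Submodule.inclusion hNP
  have hker : LinearMap.ker f = M.submoduleOf N := by
    ext x
    simp only [LinearMap.mem_ker, f, LinearMap.coe_comp, Function.comp_apply, Submodule.mkQ_apply,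
      Submodule.Quotient.mk_eq_zero]
    rfl
  have hrange : LinearMap.range f = T.map S.mkQ := by
    ext y
    constructor
    · rintro ⟨x, rfl⟩
      exact ⟨Submodule.inclusion hNP x, x.2, rfl⟩
    · rintro ⟨z, hz, rfl⟩
      exact ⟨⟨z.1, hz⟩, rfl⟩
  have h3 : Module.rank K (RelQ M N) = Module.rank K ↥(T.map S.mkQ) := by
    have e1 := (Submodule.quotEquivOfEq _ _ hker.symm).rank_eq
    have e2 := (LinearMap.quotKerEquivRange f).rank_eq
    rw [hrange] at e2
    exact e1.trans e2
  unfold relRank
  show Module.rank K (↥P ⧸ S) = Module.rank K (RelQ M N) + Module.rank K (↥P ⧸ T)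
  rw [← h1, h2, h3, add_comm]

theorem relRank_inf_sup (p p' : Submodule K V) :
    relRank (p ⊓ p') p = relRank p' (p ⊔ p') :=
  (LinearMap.quotientInfEquivSupQuotient p p').rank_eq

/-- the modular dimension formula. -/
theorem relRank_modular {A A' : Submodule K V} (h : A ≤ A') (F : Submodule K V) :
    relRank A A' = relRank (A ⊔ F) (A' ⊔ F) + relRank (A ⊓ F) (A' ⊓ F) := by
  have hmod : A' ⊓ (A ⊔ F) = (A' ⊓ F) ⊔ A := by
    rw [inf_comm, sup_inf_assoc_of_le F h, sup_comm, inf_comm]
  have e1 : relRank (A ⊓ F) (A' ⊓ F) = relRank A ((A' ⊓ F) ⊔ A) := by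
    have := relRank_inf_sup (A' ⊓ F) A
    rwa [show A' ⊓ F ⊓ A = A ⊓ F by
      rw [inf_comm, ← inf_assoc, inf_eq_left.mpr h]] at this
  have e2 : relRank (A ⊔ F) (A' ⊔ F) = relRank ((A' ⊓ F) ⊔ A) A' := by
    have := relRank_inf_sup A' (A ⊔ F)
    rw [hmod] at this
    rw [this]
    congr 1
    rw [← sup_assoc, sup_eq_left.mpr h]
  have e3 := relRank_trans (M := A) (N := (A' ⊓ F) ⊔ A) (P := A') le_sup_right
    (sup_le inf_le_left h)
  rw [e3, e1, e2, add_comm]

/-! ### finiteness / finrank forms -/

theorem RelFin.trans {M N P : Submodule K V} (hMN : M ≤ N) (hNP : N ≤ P)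
    (h1 : RelFin M N) (h2 : RelFin N P) : RelFin M P := by
  rw [relFin_iff_relRank_lt] at *
  rw [relRank_trans hMN hNP]
  exact Cardinal.add_lt_aleph0 h1 h2

theorem RelFin.left {M N P : Submodule K V} (hMN : M ≤ N) (hNP : N ≤ P)
    (h : RelFin M P) : RelFin M N := by
  rw [relFin_iff_relRank_lt] at *
  rw [relRank_trans hMN hNP] at h
  exact lt_of_le_of_lt (self_le_add_right _ _) h

theorem RelFin.right {M N P : Submodule K V} (hMN : M ≤ N) (hNP : N ≤ P)
    (h : RelFin M P) : RelFin N P := by
  rw [relFin_iff_relRank_lt] at *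
  rw [relRank_trans hMN hNP] at h
  exact lt_of_le_of_lt (self_le_add_left _ _) h

theorem relDim_trans {M N P : Submodule K V} (hMN : M ≤ N) (hNP : N ≤ P)
    (h1 : RelFin M N) (h2 : RelFin N P) : relDim M P = relDim M N + relDim N P := by
  rw [relFin_iff_relRank_lt] at *
  rw [relDim_eq_toNat, relDim_eq_toNat, relDim_eq_toNat, relRank_trans hMN hNP,
    Cardinal.toNat_add h1 h2]

theorem relFin_self (M : Submodule K V) : RelFin M M := by
  rw [relFin_iff_relRank_lt, relRank_self]; exact Cardinal.aleph0_pos

theorem relDim_self (M : Submodule K V) : relDim M M = 0 := by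
  rw [relDim_eq_toNat, relRank_self]; simp

theorem RelFin.modular_sup {A A' : Submodule K V} (h : A ≤ A') (F : Submodule K V)
    (hf : RelFin A A') : RelFin (A ⊔ F) (A' ⊔ F) := by
  rw [relFin_iff_relRank_lt] at *
  rw [relRank_modular h F] at hf
  exact lt_of_le_of_lt (self_le_add_right _ _) hf

theorem RelFin.modular_inf {A A' : Submodule K V} (h : A ≤ A') (F : Submodule K V)
    (hf : RelFin A A') : RelFin (A ⊓ F) (A' ⊓ F) := by
  rw [relFin_iff_relRank_lt] at *
  rw [relRank_modular h F] at hf
  exact lt_of_le_of_lt (self_le_add_left _ _) hf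

theorem relDim_modular {A A' : Submodule K V} (h : A ≤ A') (F : Submodule K V)
    (hf : RelFin A A') :
    relDim A A' = relDim (A ⊔ F) (A' ⊔ F) + relDim (A ⊓ F) (A' ⊓ F) := by
  have h1 := hf.modular_sup h F
  have h2 := hf.modular_inf h F
  rw [relFin_iff_relRank_lt] at *
  rw [relDim_eq_toNat, relDim_eq_toNat, relDim_eq_toNat, relRank_modular h F,
    Cardinal.toNat_add h1 h2]

/-- `N / M ≃ W` gives finiteness and dimension. -/
theorem relFin_of_equiv {W : Type*} [AddCommGroup W] [Module K W] {M N : Submodule K V}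
    (e : RelQ M N ≃ₗ[K] W) [Module.Finite K W] : RelFin M N :=
  Module.Finite.equiv e.symm

theorem relDim_of_equiv {W : Type*} [AddCommGroup W] [Module K W] {M N : Submodule K V}
    (e : RelQ M N ≃ₗ[K] W) : relDim M N = Module.finrank K W :=
  e.finrank_eq

/-- relative dimension in a finite-dimensional `N`. -/
theorem relFin_of_finite (M N : Submodule K V) [Module.Finite K N] : RelFin M N :=
  inferInstanceAs (Module.Finite K (↥N ⧸ M.submoduleOf N))

theorem relDim_add_finrank {M N : Submodule K V} (h : M ≤ N) [Module.Finite K N] :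
    relDim M N + Module.finrank K M = Module.finrank K N := by
  have h1 := Submodule.finrank_quotient_add_finrank (M.submoduleOf N)
  have h2 : Module.finrank K ↥(M.submoduleOf N) = Module.finrank K M :=
    (Submodule.submoduleOfEquivOfLe h).finrank_eq
  unfold relDim
  rw [← h2]
  exact h1

/-- if `M` is finite-dimensional and `N / M` is, so is `N`. -/
theorem finite_of_relFin {M N : Submodule K V} (h : M ≤ N) [Module.Finite K M]
    (hf : RelFin M N) : Module.Finite K N := by
  have : Module.Finite K ↥(M.submoduleOf N) :=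
    Module.Finite.equiv (Submodule.submoduleOfEquivOfLe h).symm
  have : Module.Finite K (↥N ⧸ M.submoduleOf N) := hf
  exact Module.Finite.of_submodule_quotient (M.submoduleOf N)

/-- relative dimension to the top. -/
noncomputable def relQTopEquiv (M : Submodule K V) : RelQ M ⊤ ≃ₗ[K] V ⧸ M :=
  relQEquivOfSurjective M ⊤ (M.mkQ ∘ₗ (⊤ : Submodule K V).subtype)
    (fun y => by
      obtain ⟨x, rfl⟩ := M.mkQ_surjective y
      exact ⟨⟨x, trivial⟩, rfl⟩)
    (by
      ext x
      simp only [LinearMap.mem_ker, LinearMap.coe_comp, Function.comp_apply, Submodule.mkQ_apply,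
        Submodule.Quotient.mk_eq_zero]
      rfl)

theorem relFin_top_iff (M : Submodule K V) : RelFin M ⊤ ↔ Module.Finite K (V ⧸ M) :=
  ⟨fun h => by have : Module.Finite K (RelQ M ⊤) := h; exact Module.Finite.equiv (relQTopEquiv M),
   fun h => by have := h; exact Module.Finite.equiv (relQTopEquiv M).symm⟩

theorem relDim_top (M : Submodule K V) : relDim M ⊤ = Module.finrank K (V ⧸ M) :=
  (relQTopEquiv M).finrank_eq

/-- transport along an injective linear map. -/
noncomputable def relQMapEquiv {V' : Type*} [AddCommGroup V'] [Module K V'] (φ : V →ₗ[K] V')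
    (hφ : Function.Injective φ) (M N : Submodule K V) :
    RelQ M N ≃ₗ[K] RelQ (M.map φ) (N.map φ) :=
  relQEquivOfSurjective M N
    (((M.map φ).submoduleOf (N.map φ)).mkQ ∘ₗ
      (φ.restrict (p := N) (q := N.map φ) (fun x hx => Submodule.mem_map_of_mem hx)))
    (fun y => by
      obtain ⟨⟨z, x, hx, rfl⟩, rfl⟩ := ((M.map φ).submoduleOf (N.map φ)).mkQ_surjective y
      exact ⟨⟨x, hx⟩, rfl⟩)
    (by
      ext x
      simp only [LinearMap.mem_ker, LinearMap.coe_comp, Function.comp_apply, Submodule.mkQ_apply,
        Submodule.Quotient.mk_eq_zero]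
      constructor
      · rintro ⟨m, hm, hmx⟩
        have : m = x.1 := hφ hmx
        show x.1 ∈ M
        exact this ▸ hm
      · intro hx
        exact ⟨x.1, hx, rfl⟩)

theorem relFin_map_iff {V' : Type*} [AddCommGroup V'] [Module K V'] (φ : V →ₗ[K] V')
    (hφ : Function.Injective φ) (M N : Submodule K V) :
    RelFin (M.map φ) (N.map φ) ↔ RelFin M N :=
  ⟨fun h => by
    have : Module.Finite K (RelQ (M.map φ) (N.map φ)) := h
    exact Module.Finite.equiv (relQMapEquiv φ hφ M N).symm,
   fun h => by
    have : Module.Finite K (RelQ M N) := h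
    exact Module.Finite.equiv (relQMapEquiv φ hφ M N)⟩

theorem relDim_map {V' : Type*} [AddCommGroup V'] [Module K V'] (φ : V →ₗ[K] V')
    (hφ : Function.Injective φ) (M N : Submodule K V) :
    relDim (M.map φ) (N.map φ) = relDim M N :=
  (relQMapEquiv φ hφ M N).finrank_eq.symm

theorem le_of_relDim_eq_zero {M N : Submodule K V} (hf : RelFin M N) (h : relDim M N = 0) :
    N ≤ M := by
  intro x hx
  have hfin : Module.Finite K (RelQ M N) := hf
  have hz : ∀ y : RelQ M N, y = 0 := _root_.finrank_zero_iff_forall_zero.mp h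
  have := hz (Submodule.Quotient.mk ⟨x, hx⟩)
  rw [Submodule.Quotient.mk_eq_zero] at this
  exact this

theorem relFin_of_le {M N : Submodule K V} (h : N ≤ M) : RelFin M N := by
  rw [relFin_iff_relRank_lt, relRank_of_le h]; exact Cardinal.aleph0_pos

theorem relDim_of_le {M N : Submodule K V} (h : N ≤ M) : relDim M N = 0 := by
  rw [relDim_eq_toNat, relRank_of_le h]; simp

/-- `N / M` as the image of `N` in `V / M`. -/
noncomputable def relQEquivMapMkQ (M N : Submodule K V) : RelQ M N ≃ₗ[K] ↥(N.map M.mkQ) :=
  relQEquivOfSurjective M N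
    (M.mkQ.restrict (p := N) (q := N.map M.mkQ) (fun _ hx => Submodule.mem_map_of_mem hx))
    (fun y => by
      obtain ⟨y, x, hx, rfl⟩ := y
      exact ⟨⟨x, hx⟩, rfl⟩)
    (by
      ext x
      rw [LinearMap.mem_ker]
      constructor
      · intro h
        have h2 : M.mkQ (x : V) = 0 := congrArg Subtype.val h
        rw [Submodule.mkQ_apply, Submodule.Quotient.mk_eq_zero] at h2
        exact h2
      · intro h
        apply Subtype.ext
        show M.mkQ (x : V) = 0
        rw [Submodule.mkQ_apply, Submodule.Quotient.mk_eq_zero]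
        exact h)

theorem relFin_iff_finite_map_mkQ (M N : Submodule K V) :
    RelFin M N ↔ Module.Finite K ↥(N.map M.mkQ) :=
  ⟨fun h => by
    have : Module.Finite K (RelQ M N) := h
    exact Module.Finite.equiv (relQEquivMapMkQ M N),
   fun h => Module.Finite.equiv (relQEquivMapMkQ M N).symm⟩

theorem relDim_eq_finrank_map_mkQ (M N : Submodule K V) :
    relDim M N = Module.finrank K ↥(N.map M.mkQ) :=
  (relQEquivMapMkQ M N).finrank_eq

end Fermat.Agent.S17.FND.RR68
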