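import Mathlib
import Fermat.Prelude.Def_AlgebraicCurve_Repartitions
import Fermat.Agent.S24.A564.PlaceBasic
import Fermat.Agent.S17.FND.RR68.RelDim

/-!
# Local computation for Riemann-Roch (helper68, S27)

For a place `v` and `n : ℤ`, `U v n = {x | ord_v x ≥ -n}`; `U v (n+1) / U v n ≃ k(v)`.
-/

set_option autoImplicit false

namespace Fermat.Agent.S17.FND.RR68

open AlgebraicCurve WithZero Fermat.Agent.S24.A564.SO

variable {K F : Type*} [Field K] [Field F] [Algebra K F]

/-- the fractional ideal `m_v^{-n}` as a `K`-subspace of `F`. -/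
def placeBall (v : Place K F) (n : ℤ) : Submodule K F where
  carrier := {f | v.adicValuation f ≤ exp n}
  zero_mem' := by simp
  add_mem' := by
    intro f g hf hg
    exact (Valuation.map_add _ _ _).trans (max_le (Set.mem_setOf.mp hf) (Set.mem_setOf.mp hg))
  smul_mem' := by
    intro c f hf
    show v.adicValuation (c • f) ≤ exp n
    rw [Algebra.smul_def, map_mul]
    exact (mul_le_of_le_one_left' (v.adicValuation_algebraMap_le_one c)).trans (Set.mem_setOf.mp hf)

theorem mem_placeBall_iff {v : Place K F} {n : ℤ} {f : F} :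
    f ∈ placeBall v n ↔ f = 0 ∨ -n ≤ v.ord f :=
  v.adicValuation_le_exp_iff

theorem mem_placeBall_iff' {v : Place K F} {n : ℤ} {f : F} :
    f ∈ placeBall v n ↔ v.adicValuation f ≤ exp n := Iff.rfl

theorem placeBall_mono (v : Place K F) {n m : ℤ} (h : n ≤ m) : placeBall v n ≤ placeBall v m :=
  fun _ hf => le_trans hf (exp_le_exp.mpr h)

theorem mem_maximalIdeal_iff_ord (v : Place K F) (y : v.toValuationSubring) :
    y ∈ IsLocalRing.maximalIdeal v.toValuationSubring ↔ (y : F) = 0 ∨ 1 ≤ v.ord (y : F) := by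
  rw [IsLocalRing.mem_maximalIdeal, mem_nonunits_iff, ← v.adicValuation_coe_eq_one_iff]
  rcases eq_or_ne (y : F) 0 with h0 | h0
  · simp [h0]
  · rw [v.adicValuation_eq_exp_neg_ord h0]
    have h1 : 0 ≤ v.ord (y : F) := Place_ord_nonneg_of_mem v y.2
    have : (exp (-v.ord (y : F)) : ℤᵐ⁰) = 1 ↔ v.ord (y : F) = 0 := by
      rw [← exp_zero, exp_inj]; omega
    rw [this]
    constructor
    · intro h; right; omega
    · rintro (h | h)
      · exact absurd h h0
      · omega

/-- the residue map twisted by a uniformizer power. -/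
noncomputable def placeBallToResidue (v : Place K F) (n : ℤ) (π : v.toValuationSubring)
    (hπ : Irreducible π) : ↥(placeBall v (n + 1)) →ₗ[K] v.ResidueField where
  toFun x := IsLocalRing.residue v.toValuationSubring
    ⟨(π : F) ^ (n + 1) * (x : F), by
      have hx := mem_placeBall_iff.mp x.2
      have hπF : (π : F) ≠ 0 := by
        simpa [ne_eq, ZeroMemClass.coe_eq_zero] using hπ.ne_zero
      rcases hx with hx | hx
      · rw [hx, mul_zero]; exact zero_mem _
      · by_cases hx0 : (x : F) = 0
        · rw [hx0, mul_zero]; exact zero_mem _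
        apply Place_mem_of_ord_nonneg
        rw [v.ord_mul (zpow_ne_zero _ hπF) hx0, v.ord_zpow, v.ord_coe_irreducible hπ]
        omega⟩
  map_add' x y := by
    rw [← map_add]
    congr 1
    ext
    simp [mul_add]
  map_smul' c x := by
    rw [RingHom.id_apply, Algebra.smul_def, IsScalarTower.algebraMap_apply K v.toValuationSubring
      v.ResidueField]
    rw [IsLocalRing.ResidueField.algebraMap_eq, ← map_mul]
    congr 1
    ext
    simp [Algebra.smul_def]
    ring

theorem placeBallToResidue_apply (v : Place K F) (n : ℤ) (π : v.toValuationSubring)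
    (hπ : Irreducible π) (x : ↥(placeBall v (n + 1))) (h) :
    placeBallToResidue v n π hπ x = IsLocalRing.residue v.toValuationSubring
      ⟨(π : F) ^ (n + 1) * (x : F), h⟩ := rfl

theorem placeBallToResidue_surjective (v : Place K F) (n : ℤ) (π : v.toValuationSubring)
    (hπ : Irreducible π) : Function.Surjective (placeBallToResidue v n π hπ) := by
  intro r
  obtain ⟨y, rfl⟩ := IsLocalRing.residue_surjective r
  have hπF : (π : F) ≠ 0 := by
    simpa [ne_eq, ZeroMemClass.coe_eq_zero] using hπ.ne_zero
  have hc : (π : F) ^ (n + 1) ≠ 0 := zpow_ne_zero _ hπF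
  refine ⟨⟨((π : F) ^ (n + 1))⁻¹ * (y : F), ?_⟩, ?_⟩
  · rw [mem_placeBall_iff]
    by_cases hy : (y : F) = 0
    · left; rw [hy, mul_zero]
    right
    rw [v.ord_mul (inv_ne_zero hc) hy, v.ord_inv, v.ord_zpow, v.ord_coe_irreducible hπ]
    have := Place_ord_nonneg_of_mem v y.2
    omega
  · show IsLocalRing.residue v.toValuationSubring _ = _
    congr 1
    ext
    show (π : F) ^ (n + 1) * (((π : F) ^ (n + 1))⁻¹ * (y : F)) = y
    rw [← mul_assoc, mul_inv_cancel₀ hc, one_mul]

theorem placeBallToResidue_ker (v : Place K F) (n : ℤ) (π : v.toValuationSubring)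
    (hπ : Irreducible π) :
    LinearMap.ker (placeBallToResidue v n π hπ) = (placeBall v n).submoduleOf (placeBall v (n + 1)) := by
  ext x
  have hπF : (π : F) ≠ 0 := by
    simpa [ne_eq, ZeroMemClass.coe_eq_zero] using hπ.ne_zero
  have hc : (π : F) ^ (n + 1) ≠ 0 := zpow_ne_zero _ hπF
  rw [LinearMap.mem_ker]
  show IsLocalRing.residue v.toValuationSubring _ = 0 ↔ (x : F) ∈ placeBall v n
  rw [IsLocalRing.residue_eq_zero_iff, mem_maximalIdeal_iff_ord, mem_placeBall_iff]
  show (π : F) ^ (n + 1) * (x : F) = 0 ∨ 1 ≤ v.ord ((π : F) ^ (n + 1) * (x : F)) ↔ _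
  by_cases hx0 : (x : F) = 0
  · simp [hx0]
  · rw [v.ord_mul hc hx0, v.ord_zpow, v.ord_coe_irreducible hπ]
    simp only [mul_eq_zero, hc, hx0, or_self, false_or]
    constructor <;> intro h <;> omega

/-- `U v (n+1) / U v n ≃ k(v)`. -/
noncomputable def placeBallRelQEquiv (v : Place K F) (n : ℤ) :
    RelQ (placeBall v n) (placeBall v (n + 1)) ≃ₗ[K] v.ResidueField :=
  let h := IsDiscreteValuationRing.exists_irreducible v.toValuationSubring
  relQEquivOfSurjective _ _ (placeBallToResidue v n h.choose h.choose_spec)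
    (placeBallToResidue_surjective v n _ _) (placeBallToResidue_ker v n _ _)

theorem placeBall_relFin (v : Place K F) [Module.Finite K v.ResidueField] (n : ℤ) :
    RelFin (placeBall v n) (placeBall v (n + 1)) :=
  relFin_of_equiv (placeBallRelQEquiv v n)

theorem placeBall_relDim (v : Place K F) (n : ℤ) :
    relDim (placeBall v n) (placeBall v (n + 1)) = v.deg :=
  relDim_of_equiv (placeBallRelQEquiv v n)

end Fermat.Agent.S17.FND.RR68
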