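import Mathlib
import Fermat.Prelude.Def_AlgebraicCurve_Repartitions
import Fermat.Agent.S17.FND.RR68.Local

/-!
# Repartition spaces: `dim A(D')/A(D) = deg D' - deg D` (helper68, S27)
-/

set_option autoImplicit false

namespace Fermat.Agent.S17.FND.RR68

open AlgebraicCurve WithZero Fermat.Agent.S24.A564.SO

variable {K F : Type*} [Field K] [Field F] [Algebra K F]

/-- evaluation of a repartition at a place. -/
def evRep (P : Place K F) : ↥(repartitions K F) →ₗ[K] F where
  toFun α := (α : Place K F → F) P
  map_add' _ _ := rfl
  map_smul' _ _ := rfl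

@[simp] theorem evRep_apply (P : Place K F) (α : ↥(repartitions K F)) :
    evRep P α = (α : Place K F → F) P := rfl

/-- every repartition has finitely many poles. -/
theorem repartitions_finite_poles [HasPrincipalDivisors K F] (α : ↥(repartitions K F)) :
    {v : Place K F | ¬ v.adicValuation ((α : Place K F → F) v) ≤ 1}.Finite := by
  obtain ⟨a, ha⟩ := α
  show {v : Place K F | ¬ v.adicValuation (a v) ≤ 1}.Finite
  unfold repartitions at ha
  induction ha using Algebra.adjoin_induction with
  | mem x hx => exact hx
  | algebraMap f =>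
    rcases eq_or_ne f 0 with rfl | hf
    · simp
    · obtain ⟨D, hD, -⟩ := HasPrincipalDivisors.exists_divisor (K := K) f hf
      refine D.support.finite_toSet.subset fun v hv => ?_
      rw [Set.mem_setOf_eq] at hv
      have hv' : ¬ v.adicValuation f ≤ 1 := hv
      rw [v.not_adicValuation_le_one_iff] at hv'
      rw [Finset.mem_coe, Finsupp.mem_support_iff, hD v]
      omega
  | add x y _ _ hx hy =>
    refine (hx.union hy).subset fun v hv => ?_
    rw [Set.mem_setOf_eq] at hv
    by_contra hcon
    rw [Set.mem_union, not_or, Set.mem_setOf_eq, Set.mem_setOf_eq, not_not, not_not] at hcon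
    exact hv ((Valuation.map_add _ _ _).trans (max_le hcon.1 hcon.2))
  | mul x y _ _ hx hy =>
    refine (hx.union hy).subset fun v hv => ?_
    rw [Set.mem_setOf_eq] at hv
    by_contra hcon
    rw [Set.mem_union, not_or, Set.mem_setOf_eq, Set.mem_setOf_eq, not_not, not_not] at hcon
    apply hv
    show v.adicValuation (x v * y v) ≤ 1
    rw [map_mul]
    exact mul_le_one' hcon.1 hcon.2

/-- every repartition lies in some `A(D)` with `D ≥ D0`. -/
theorem exists_divisor_ge_mem_repartitionsOf [HasPrincipalDivisors K F]
    (α : ↥(repartitions K F)) (D0 : Divisor K F) :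
    ∃ D : Divisor K F, D0 ≤ D ∧ α ∈ repartitionsOf D := by
  classical
  have hfin := repartitions_finite_poles α
  let f : Place K F → ℤ := fun v => max (D0 v) (max 0 (-v.ord ((α : Place K F → F) v)))
  have hf : ∀ v, f v ≠ 0 → v ∈ hfin.toFinset ∪ D0.support := by
    intro v hv
    by_contra hcon
    rw [Finset.mem_union, not_or, Set.Finite.mem_toFinset, Set.mem_setOf_eq, not_not,
      Finsupp.mem_support_iff, not_not] at hcon
    apply hv
    show max (D0 v) (max 0 (-v.ord ((α : Place K F → F) v))) = 0
    rw [hcon.2]
    rcases v.adicValuation_le_one_iff.mp hcon.1 with h | h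
    · rw [h]; simp
    · rw [max_eq_left (by omega : -v.ord ((α : Place K F → F) v) ≤ 0)]; simp
  refine ⟨Finsupp.onFinset _ f hf, ?_, ?_⟩
  · rw [Finsupp.le_def]
    intro v
    rw [Finsupp.onFinset_apply]
    exact le_max_left _ _
  · rw [mem_repartitionsOf_iff]
    intro v
    rw [Finsupp.onFinset_apply]
    right
    have h1 : max 0 (-v.ord ((α : Place K F → F) v)) ≤ f v := le_max_right _ _
    have h2 : -v.ord ((α : Place K F → F) v) ≤ max 0 (-v.ord ((α : Place K F → F) v)) :=
      le_max_right _ _
    omega

/-- the step map `A(D + P) → k(P)`. -/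
noncomputable def stepMap (D : Divisor K F) (P : Place K F) (π : P.toValuationSubring)
    (hπ : Irreducible π) :
    ↥(repartitionsOf (D + Finsupp.single P 1)) →ₗ[K] P.ResidueField :=
  (placeBallToResidue P (D P) π hπ) ∘ₗ
    (LinearMap.codRestrict (placeBall P (D P + 1))
      ((evRep P) ∘ₗ (repartitionsOf (D + Finsupp.single P 1)).subtype)
      (fun α => by
        have h := α.2 P
        rw [Finsupp.add_apply, Finsupp.single_eq_same] at h
        exact h))

theorem stepMap_surjective (D : Divisor K F) (P : Place K F) (π : P.toValuationSubring)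
    (hπ : Irreducible π) : Function.Surjective (stepMap D P π hπ) := by
  classical
  intro r
  obtain ⟨x, rfl⟩ := placeBallToResidue_surjective P (D P) π hπ r
  have hmem : (Pi.single P (x : F) : Place K F → F) ∈ repartitions K F := by
    apply mem_repartitions_of_finite
    refine (Set.finite_singleton P).subset fun v hv => ?_
    rw [Set.mem_setOf_eq] at hv
    by_contra hne
    rw [Set.mem_singleton_iff] at hne
    apply hv
    rw [Pi.single_eq_of_ne hne]
    simp
  refine ⟨⟨⟨Pi.single P (x : F), hmem⟩, ?_⟩, ?_⟩
  · intro v
    show v.adicValuation ((Pi.single P (x : F) : Place K F → F) v) ≤ exp ((D + Finsupp.single P 1 : Divisor K F) v)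
    by_cases hv : v = P
    · subst hv
      rw [Pi.single_eq_same, Finsupp.add_apply, Finsupp.single_eq_same]
      exact x.2
    · rw [Pi.single_eq_of_ne hv]
      simp
  · show placeBallToResidue P (D P) π hπ _ = placeBallToResidue P (D P) π hπ x
    congr 1
    ext
    show (Pi.single P (x : F) : Place K F → F) P = x
    rw [Pi.single_eq_same]

theorem stepMap_ker (D : Divisor K F) (P : Place K F) (π : P.toValuationSubring)
    (hπ : Irreducible π) :
    LinearMap.ker (stepMap D P π hπ) =
      (repartitionsOf D).submoduleOf (repartitionsOf (D + Finsupp.single P 1)) := by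
  classical
  ext α
  rw [LinearMap.mem_ker]
  show placeBallToResidue P (D P) π hπ _ = 0 ↔ (α : ↥(repartitions K F)) ∈ repartitionsOf D
  rw [← LinearMap.mem_ker, placeBallToResidue_ker]
  show ((α : ↥(repartitions K F)) : Place K F → F) P ∈ placeBall P (D P) ↔ _
  constructor
  · intro h v
    by_cases hv : v = P
    · subst hv
      exact h
    · have h2 := α.2 v
      rw [Finsupp.add_apply, Finsupp.single_eq_of_ne hv, add_zero] at h2
      exact h2
  · intro h
    exact h P

theorem repartitionsOf_step_le (D : Divisor K F) (P : Place K F) :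
    repartitionsOf D ≤ repartitionsOf (D + Finsupp.single P 1) :=
  repartitionsOf_mono (by
    rw [Finsupp.le_def]
    intro v
    rw [Finsupp.add_apply]
    have : (0 : ℤ) ≤ (Finsupp.single P (1 : ℤ)) v := by
      classical
      rw [Finsupp.single_apply]
      split_ifs <;> simp
    omega)

/-- `A(D + P) / A(D) ≃ k(P)`. -/
noncomputable def stepEquiv (D : Divisor K F) (P : Place K F) :
    RelQ (repartitionsOf D) (repartitionsOf (D + Finsupp.single P 1)) ≃ₗ[K] P.ResidueField :=
  let h := IsDiscreteValuationRing.exists_irreducible P.toValuationSubring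
  relQEquivOfSurjective _ _ (stepMap D P h.choose h.choose_spec)
    (stepMap_surjective D P _ _) (stepMap_ker D P _ _)

theorem repartitionsOf_step_relFin (D : Divisor K F) (P : Place K F)
    [Module.Finite K P.ResidueField] :
    RelFin (repartitionsOf D) (repartitionsOf (D + Finsupp.single P 1)) :=
  relFin_of_equiv (stepEquiv D P)

theorem repartitionsOf_step_relDim (D : Divisor K F) (P : Place K F) :
    relDim (repartitionsOf D) (repartitionsOf (D + Finsupp.single P 1)) = P.deg :=
  relDim_of_equiv (stepEquiv D P)

/-- total weight of a divisor (sum of coefficients). -/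
noncomputable def divWt : Divisor K F →+ ℤ := Finsupp.liftAddHom fun _ => AddMonoidHom.id ℤ

@[simp] theorem divWt_single (v : Place K F) (n : ℤ) : divWt (Finsupp.single v n) = n := by
  simp [divWt]

theorem divWt_nonneg {E : Divisor K F} (hE : 0 ≤ E) : 0 ≤ divWt E := by
  simp only [divWt, Finsupp.liftAddHom_apply, AddMonoidHom.id_apply]
  exact Finset.sum_nonneg fun v _ => by
    have := Finsupp.le_def.mp hE v
    simpa using this

theorem degree_nonneg {E : Divisor K F} (hE : 0 ≤ E) : 0 ≤ Divisor.degree E := by
  simp only [Divisor.degree, Finsupp.liftAddHom_apply, AddMonoidHom.coe_mulRight]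
  exact Finset.sum_nonneg fun v _ => by
    have := Finsupp.le_def.mp hE v
    have h2 : (0 : ℤ) ≤ E v := by simpa using this
    positivity

theorem degree_mono {D D' : Divisor K F} (h : D ≤ D') : Divisor.degree D ≤ Divisor.degree D' := by
  have := degree_nonneg (E := D' - D) (sub_nonneg.mpr h)
  rw [map_sub] at this
  omega

theorem exists_lt_of_le_of_ne {D D' : Divisor K F} (h : D ≤ D') (hne : D ≠ D') :
    ∃ P, D P < D' P := by
  by_contra hcon
  simp only [not_exists, not_lt] at hcon
  apply hne
  ext v
  exact le_antisymm (Finsupp.le_def.mp h v) (hcon v)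

/-- `dim A(D') / A(D) = deg D' - deg D` for `D ≤ D'`. -/
theorem repartitionsOf_relFin_relDim (hfin : ∀ v : Place K F, Module.Finite K v.ResidueField)
    {D D' : Divisor K F} (h : D ≤ D') :
    RelFin (repartitionsOf D) (repartitionsOf D') ∧
      (relDim (repartitionsOf D) (repartitionsOf D') : ℤ)
        = Divisor.degree D' - Divisor.degree D := by
  classical
  obtain ⟨m, hm⟩ : ∃ m : ℕ, divWt (D' - D) = m :=
    ⟨(divWt (D' - D)).toNat, (Int.toNat_of_nonneg (divWt_nonneg (sub_nonneg.mpr h))).symm⟩
  induction m generalizing D with
  | zero =>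
    have hDD : D = D' := by
      by_contra hne
      obtain ⟨P, hP⟩ := exists_lt_of_le_of_ne h hne
      have h1 : Finsupp.single P 1 ≤ D' - D := by
        rw [Finsupp.le_def]
        intro v
        rw [Finsupp.sub_apply, Finsupp.single_apply]
        have := Finsupp.le_def.mp h v
        split_ifs with hv
        · subst hv; omega
        · omega
      have h2 := divWt_nonneg (E := D' - D - Finsupp.single P 1) (sub_nonneg.mpr h1)
      rw [map_sub, divWt_single, hm] at h2
      simp at h2
    subst hDD
    refine ⟨relFin_self _, ?_⟩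
    rw [relDim_self]; simp
  | succ m ih =>
    have hne : D ≠ D' := by
      rintro rfl
      rw [sub_self, map_zero] at hm
      exact absurd hm (by simp; omega)
    obtain ⟨P, hP⟩ := exists_lt_of_le_of_ne h hne
    have h1 : D + Finsupp.single P 1 ≤ D' := by
      rw [Finsupp.le_def]
      intro v
      rw [Finsupp.add_apply, Finsupp.single_apply]
      have := Finsupp.le_def.mp h v
      split_ifs with hv
      · subst hv; omega
      · omega
    have h2 : divWt (D' - (D + Finsupp.single P 1)) = m := by
      rw [← sub_sub, map_sub, divWt_single, hm]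
      push_cast; ring
    obtain ⟨hf2, hd2⟩ := ih h1 h2
    haveI := hfin P
    have hf1 := repartitionsOf_step_relFin D P
    have hd1 := repartitionsOf_step_relDim D P
    refine ⟨hf1.trans (repartitionsOf_step_le D P) (repartitionsOf_mono h1) hf2, ?_⟩
    rw [relDim_trans (repartitionsOf_step_le D P) (repartitionsOf_mono h1) hf1 hf2, Nat.cast_add,
      hd2, hd1, map_add, Divisor.degree_single]
    ring

theorem repartitionsOf_step_le_divisor (D : Divisor K F) (P : Place K F) :
    D ≤ D + Finsupp.single P 1 := by
  classical
  rw [Finsupp.le_def]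
  intro v
  rw [Finsupp.add_apply, Finsupp.single_apply]
  split_ifs <;> omega

end Fermat.Agent.S17.FND.RR68
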