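import Mathlib
import Fermat.Prelude.Def_AlgebraicCurve_Repartitions
import Fermat.Agent.S17.FND.RR68.Adele

/-!
# Riemann's theorem in the repartition language, abstract core (helper68, S27)

Hypotheses: `HasPrincipalDivisors K F`, finite residue fields, at least one place, and a
Riemann bound `deg D - l(D) ≤ c`.  Conclusions: `L(D)` and `H1 D` finite-dimensional,
`l(D) - i(D) = deg D + l(0) - genusFF`.
-/

set_option autoImplicit false

namespace Fermat.Agent.S17.FND.RR68

open AlgebraicCurve WithZero Fermat.Agent.S24.A564.SO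

variable {K F : Type*} [Field K] [Field F] [Algebra K F]

/-- diagonal embedding of `F` into the repartitions, `K`-linear. -/
def diagRep : F →ₗ[K] ↥(repartitions K F) where
  toFun f := ⟨fun _ => f, (repartitions K F).algebraMap_mem f⟩
  map_add' _ _ := rfl
  map_smul' _ _ := rfl

@[simp] theorem diagRep_apply (f : F) (v : Place K F) :
    ((diagRep (K := K) f : ↥(repartitions K F)) : Place K F → F) v = f := rfl

theorem range_diagRep : LinearMap.range (diagRep (K := K) (F := F)) = principalRepartitions K F := by
  ext α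
  rw [mem_principalRepartitions_iff, LinearMap.mem_range]
  constructor
  · rintro ⟨f, rfl⟩
    exact ⟨f, rfl⟩
  · rintro ⟨f, hf⟩
    exact ⟨f, Subtype.ext hf.symm⟩

theorem diagRep_injective [Nonempty (Place K F)] :
    Function.Injective (diagRep (K := K) (F := F)) := by
  intro f g h
  have := congrArg (fun α : ↥(repartitions K F) => (α : Place K F → F) (Classical.arbitrary _)) h
  simpa using this

theorem map_diagRep_riemannRochSpace (D : Divisor K F) :
    (riemannRochSpace D).map (diagRep (K := K) (F := F))
      = repartitionsOf D ⊓ principalRepartitions K F := by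
  ext α
  rw [Submodule.mem_map, Submodule.mem_inf, mem_principalRepartitions_iff]
  constructor
  · rintro ⟨f, hf, rfl⟩
    exact ⟨fun v => hf v, f, rfl⟩
  · rintro ⟨h1, f, hf⟩
    refine ⟨f, fun v => ?_, Subtype.ext hf.symm⟩
    have := h1 v
    rw [hf] at this
    exact this

/-- `l(D)`. -/
noncomputable def ell (D : Divisor K F) : ℕ := Module.finrank K (riemannRochSpace D)

theorem riemannRochSpace_mono {D D' : Divisor K F} (h : D ≤ D') :
    riemannRochSpace D ≤ riemannRochSpace D' := fun _ hf v =>
  (hf v).trans (exp_le_exp.mpr (Finsupp.le_def.mp h v))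

theorem riemannRochSpace_eq_bot_of_degree_neg [HasPrincipalDivisors K F] {D : Divisor K F}
    (h : Divisor.degree D < 0) : riemannRochSpace D = ⊥ := by
  rw [eq_bot_iff]
  intro f hf
  rw [Submodule.mem_bot]
  by_contra hf0
  obtain ⟨E, hE, hE0⟩ := HasPrincipalDivisors.exists_divisor (K := K) f hf0
  have hle : (0 : Divisor K F) ≤ E + D := by
    rw [Finsupp.le_def]
    intro v
    rw [Finsupp.add_apply, hE v]
    rcases (mem_riemannRochSpace_iff.mp hf) v with h0 | h0
    · exact absurd h0 hf0
    · simp only [Finsupp.coe_zero, Pi.zero_apply]; omega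
  have := degree_nonneg hle
  rw [map_add, hE0] at this
  omega

theorem place_deg_pos (v : Place K F) [Module.Finite K v.ResidueField] : 0 < v.deg :=
  Module.finrank_pos

theorem exists_le_degree_neg (hfin : ∀ v : Place K F, Module.Finite K v.ResidueField)
    [Nonempty (Place K F)] (D : Divisor K F) :
    ∃ D0 : Divisor K F, D0 ≤ D ∧ Divisor.degree D0 < 0 := by
  classical
  let P : Place K F := Classical.arbitrary _
  haveI := hfin P
  have hP : (1 : ℤ) ≤ P.deg := by exact_mod_cast place_deg_pos P
  refine ⟨D - Finsupp.single P (|Divisor.degree D| + 1), ?_, ?_⟩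
  · rw [Finsupp.le_def]
    intro v
    rw [Finsupp.sub_apply, Finsupp.single_apply]
    split_ifs
    · have := abs_nonneg (Divisor.degree D); omega
    · omega
  · rw [map_sub, Divisor.degree_single]
    have h1 := le_abs_self (Divisor.degree D)
    have h2 := abs_nonneg (Divisor.degree D)
    nlinarith

section core

variable (hfin : ∀ v : Place K F, Module.Finite K v.ResidueField)
include hfin

theorem riemannRochSpace_relFin [Nonempty (Place K F)] {D D' : Divisor K F} (h : D ≤ D') :
    RelFin (riemannRochSpace D) (riemannRochSpace D') := by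
  have h1 := (repartitionsOf_relFin_relDim hfin h).1
  have h2 := h1.modular_inf (repartitionsOf_mono h) (principalRepartitions K F)
  rw [← map_diagRep_riemannRochSpace, ← map_diagRep_riemannRochSpace] at h2
  exact (relFin_map_iff _ diagRep_injective _ _).mp h2

/-- `L(D)` is finite-dimensional. -/
theorem finite_riemannRochSpace [HasPrincipalDivisors K F] [Nonempty (Place K F)]
    (D : Divisor K F) : Module.Finite K (riemannRochSpace D) := by
  obtain ⟨D0, h0, hdeg⟩ := exists_le_degree_neg hfin D
  have hbot := riemannRochSpace_eq_bot_of_degree_neg hdeg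
  have hfinbot : Module.Finite K (riemannRochSpace D0) := by
    rw [hbot]; infer_instance
  exact finite_of_relFin (riemannRochSpace_mono h0) (riemannRochSpace_relFin hfin h0)

/-- the key relative dimension: for `D ≤ D'`,
`dim (A(D') + F)/(A(D) + F) = (deg D' - l(D')) - (deg D - l(D))`. -/
theorem sup_principal_relFin_relDim [HasPrincipalDivisors K F] [Nonempty (Place K F)]
    {D D' : Divisor K F} (h : D ≤ D') :
    RelFin (repartitionsOf D ⊔ principalRepartitions K F)
        (repartitionsOf D' ⊔ principalRepartitions K F) ∧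
      (relDim (repartitionsOf D ⊔ principalRepartitions K F)
        (repartitionsOf D' ⊔ principalRepartitions K F) : ℤ)
        = (Divisor.degree D' - ell D') - (Divisor.degree D - ell D) := by
  obtain ⟨h1, h1d⟩ := repartitionsOf_relFin_relDim hfin h
  refine ⟨h1.modular_sup (repartitionsOf_mono h) _, ?_⟩
  have hmod := relDim_modular (repartitionsOf_mono h) (principalRepartitions K F) h1
  rw [← map_diagRep_riemannRochSpace, ← map_diagRep_riemannRochSpace,
    relDim_map _ diagRep_injective] at hmod
  haveI := finite_riemannRochSpace hfin D'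
  have h3 := relDim_add_finrank (riemannRochSpace_mono h)
  unfold ell
  have h4 : (relDim (repartitionsOf D) (repartitionsOf D') : ℤ)
      = relDim (repartitionsOf D ⊔ principalRepartitions K F)
        (repartitionsOf D' ⊔ principalRepartitions K F)
        + relDim (riemannRochSpace D) (riemannRochSpace D') := by
    exact_mod_cast hmod
  have h5 : (relDim (riemannRochSpace D) (riemannRochSpace D') : ℤ)
      + Module.finrank K (riemannRochSpace D) = Module.finrank K (riemannRochSpace D') := by
    exact_mod_cast h3
  omega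

/-- `deg D - l(D)` is monotone. -/
theorem degree_sub_ell_mono [HasPrincipalDivisors K F] [Nonempty (Place K F)]
    {D D' : Divisor K F} (h : D ≤ D') :
    Divisor.degree D - ell D ≤ Divisor.degree D' - ell D' := by
  have := (sup_principal_relFin_relDim hfin h).2
  have h0 : (0 : ℤ) ≤ relDim (repartitionsOf D ⊔ principalRepartitions K F)
        (repartitionsOf D' ⊔ principalRepartitions K F) := Int.natCast_nonneg _
  omega

end core

/-! ### invariance under principal shifts -/

/-- multiplication by a nonzero element as a `K`-linear automorphism of `F`. -/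
def mulRightEquiv (z : F) (hz : z ≠ 0) : F ≃ₗ[K] F where
  toFun f := f * z
  invFun f := f * z⁻¹
  map_add' f g := add_mul f g z
  map_smul' c f := by simp [Algebra.smul_def, mul_assoc]
  left_inv f := by simp [mul_assoc, hz]
  right_inv f := by simp [mul_assoc, hz]

theorem riemannRochSpace_add_principal (D E : Divisor K F) (z : F) (hz : z ≠ 0)
    (hE : ∀ v, E v = v.ord z) :
    (riemannRochSpace (D + E)).map (mulRightEquiv (K := K) z hz).toLinearMap = riemannRochSpace D := by
  ext f
  rw [Submodule.mem_map]
  constructor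
  · rintro ⟨g, hg, rfl⟩
    rw [mem_riemannRochSpace_iff] at hg ⊢
    intro v
    rcases hg v with h | h
    · left; subst h; simp [mulRightEquiv]
    · by_cases hg0 : g = 0
      · left; subst hg0; simp [mulRightEquiv]
      right
      show -D v ≤ v.ord (g * z)
      rw [v.ord_mul hg0 hz]
      rw [Finsupp.add_apply, hE v] at h
      omega
  · intro hf
    refine ⟨f * z⁻¹, ?_, by simp [mulRightEquiv, mul_assoc, hz]⟩
    rw [mem_riemannRochSpace_iff] at hf ⊢
    intro v
    rcases hf v with h | h
    · left; subst h; simp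
    · by_cases hf0 : f = 0
      · left; subst hf0; simp
      right
      rw [v.ord_mul hf0 (inv_ne_zero hz), v.ord_inv, Finsupp.add_apply, hE v]
      omega

theorem ell_add_principal (D E : Divisor K F) (z : F) (hz : z ≠ 0)
    (hE : ∀ v, E v = v.ord z) : ell (D + E) = ell D := by
  unfold ell
  rw [← riemannRochSpace_add_principal D E z hz hE]
  exact (LinearEquiv.finrank_map_eq (mulRightEquiv (K := K) z hz) _).symm

theorem degree_eq_zero_of_principal [HasPrincipalDivisors K F] (E : Divisor K F) (z : F)
    (hz : z ≠ 0) (hE : ∀ v, E v = v.ord z) : Divisor.degree E = 0 := by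
  obtain ⟨E', hE', h0⟩ := HasPrincipalDivisors.exists_divisor (K := K) z hz
  have : E = E' := by
    ext v
    rw [hE v, hE' v]
  rw [this, h0]

/-! ### Riemann's theorem from a Riemann bound -/

section thm

variable (hfin : ∀ v : Place K F, Module.Finite K v.ResidueField)
  [HasPrincipalDivisors K F] [Nonempty (Place K F)]
  (c : ℤ) (hR : ∀ D : Divisor K F, Divisor.degree D - ell D ≤ c)
include hfin hR

theorem exists_max_degree_sub_ell :
    ∃ Dm : Divisor K F, ∀ D : Divisor K F,
      Divisor.degree D - ell D ≤ Divisor.degree Dm - ell Dm := by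
  obtain ⟨n, ⟨Dm, hDm⟩, hmax⟩ := Int.exists_greatest_of_bdd
    (P := fun n : ℤ => ∃ D : Divisor K F, n = Divisor.degree D - ell D)
    ⟨c, fun z ⟨D, hD⟩ => hD ▸ hR D⟩ ⟨_, 0, rfl⟩
  exact ⟨Dm, fun D => hDm ▸ hmax _ ⟨D, rfl⟩⟩

omit hR in
theorem sup_principal_eq_top_of_max {Dm : Divisor K F}
    (hmax : ∀ D : Divisor K F, Divisor.degree D - ell D ≤ Divisor.degree Dm - ell Dm)
    {D : Divisor K F} (hD : Dm ≤ D) :
    repartitionsOf D ⊔ principalRepartitions K F = ⊤ := by
  rw [eq_top_iff]
  intro α _
  obtain ⟨D1, hD1, hα⟩ := exists_divisor_ge_mem_repartitionsOf α D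
  obtain ⟨hf, hd⟩ := sup_principal_relFin_relDim hfin hD1
  have h1 := degree_sub_ell_mono hfin hD
  have h2 := hmax D
  have h3 := degree_sub_ell_mono hfin hD1
  have h4 := hmax D1
  have h0 : relDim (repartitionsOf D ⊔ principalRepartitions K F)
      (repartitionsOf D1 ⊔ principalRepartitions K F) = 0 := by omega
  exact le_of_relDim_eq_zero hf h0 (Submodule.mem_sup_left hα)

omit hR in
theorem finite_H1_and_finrank_of_max {Dm : Divisor K F}
    (hmax : ∀ D : Divisor K F, Divisor.degree D - ell D ≤ Divisor.degree Dm - ell Dm)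
    (D0 : Divisor K F) :
    Module.Finite K (H1 D0) ∧ (Module.finrank K (H1 D0) : ℤ)
      = (Divisor.degree Dm - ell Dm) - (Divisor.degree D0 - ell D0) := by
  have hle1 : D0 ≤ D0 ⊔ Dm := le_sup_left
  have hle2 : Dm ≤ D0 ⊔ Dm := le_sup_right
  obtain ⟨hf, hd⟩ := sup_principal_relFin_relDim hfin hle1
  rw [sup_principal_eq_top_of_max hfin hmax hle2] at hf hd
  have h1 := degree_sub_ell_mono hfin hle2
  have h2 := hmax (D0 ⊔ Dm)
  refine ⟨(relFin_top_iff _).mp hf, ?_⟩
  rw [relDim_top] at hd
  show (Module.finrank K (↥(repartitions K F) ⧸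
    (repartitionsOf D0 ⊔ principalRepartitions K F)) : ℤ) = _
  omega

/-- `H1 D` is finite-dimensional. -/
theorem finite_H1 (D : Divisor K F) : Module.Finite K (H1 D) := by
  obtain ⟨Dm, hmax⟩ := exists_max_degree_sub_ell hfin c hR
  exact (finite_H1_and_finrank_of_max hfin hmax D).1

/-- Riemann-Roch, first form: `l(D) - i(D) = deg D + l(0) - g`. -/
theorem riemann_roch_H1 (D : Divisor K F) :
    (ell D : ℤ) - Module.finrank K (H1 D)
      = Divisor.degree D + ell (0 : Divisor K F) - genusFF K F := by
  obtain ⟨Dm, hmax⟩ := exists_max_degree_sub_ell hfin c hR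
  have h1 := (finite_H1_and_finrank_of_max hfin hmax D).2
  have h0 := (finite_H1_and_finrank_of_max hfin hmax (0 : Divisor K F)).2
  have hg : (genusFF K F : ℤ) = Module.finrank K (H1 (0 : Divisor K F)) := rfl
  rw [map_zero] at h0
  omega

/-- Riemann's inequality with the genus: `l(D) ≥ deg D + l(0) - g`. -/
theorem riemann_inequality (D : Divisor K F) :
    Divisor.degree D + ell (0 : Divisor K F) - genusFF K F ≤ ell D := by
  have := riemann_roch_H1 hfin c hR D
  have h0 : (0 : ℤ) ≤ Module.finrank K (H1 D) := Int.natCast_nonneg _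
  omega

/-- `H1 D = 0` for all divisors of large degree. -/
theorem exists_degree_bound_H1_eq_zero :
    ∃ c' : ℤ, ∀ D : Divisor K F, c' ≤ Divisor.degree D → Module.finrank K (H1 D) = 0 := by
  obtain ⟨Dm, hmax⟩ := exists_max_degree_sub_ell hfin c hR
  refine ⟨Divisor.degree Dm + (Divisor.degree Dm - ell Dm) + 1, fun D hD => ?_⟩
  -- `l(D - Dm) > 0`
  have h1 := hmax (D - Dm)
  rw [map_sub] at h1
  have hpos : 0 < ell (D - Dm) := by
    have : (0 : ℤ) < ell (D - Dm) := by omega
    exact_mod_cast this
  haveI := finite_riemannRochSpace hfin (D - Dm)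
  have hnt : Nontrivial (riemannRochSpace (D - Dm)) := Module.finrank_pos_iff.mp hpos
  obtain ⟨⟨z, hzm⟩, hz0⟩ := exists_ne (0 : riemannRochSpace (D - Dm))
  have hz : z ≠ 0 := fun h => hz0 (Subtype.ext h)
  obtain ⟨E, hE, hE0⟩ := HasPrincipalDivisors.exists_divisor (K := K) z hz
  have hge : Dm ≤ D + E := by
    rw [Finsupp.le_def]
    intro v
    rw [Finsupp.add_apply, hE v]
    rcases (mem_riemannRochSpace_iff.mp hzm) v with h | h
    · exact absurd h hz
    · rw [Finsupp.sub_apply] at h; omega
  have h2 := degree_sub_ell_mono hfin hge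
  have h3 := hmax (D + E)
  rw [map_add, hE0, ell_add_principal D E z hz hE] at h2 h3
  have h4 := (finite_H1_and_finrank_of_max hfin hmax D).2
  have : (Module.finrank K (H1 D) : ℤ) = 0 := by omega
  exact_mod_cast this

end thm

/-- a Riemann bound follows from a bound on a family of divisors that is cofinal up to
linear equivalence. -/
theorem degree_sub_ell_le_of_cofinal (hfin : ∀ v : Place K F, Module.Finite K v.ResidueField)
    [HasPrincipalDivisors K F] [Nonempty (Place K F)] {ι : Type*} (B : ι → Divisor K F) (c : ℤ)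
    (h1 : ∀ m, Divisor.degree (B m) - ell (B m) ≤ c)
    (h2 : ∀ D : Divisor K F, ∃ (m : ι) (z : F) (E : Divisor K F),
      z ≠ 0 ∧ (∀ v, E v = v.ord z) ∧ D + E ≤ B m) (D : Divisor K F) :
    Divisor.degree D - ell D ≤ c := by
  obtain ⟨m, z, E, hz, hE, hle⟩ := h2 D
  have h3 := degree_sub_ell_mono hfin hle
  rw [map_add, degree_eq_zero_of_principal E z hz hE, ell_add_principal D E z hz hE] at h3
  have := h1 m
  omega

end Fermat.Agent.S17.FND.RR68
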