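import Mathlib
import Fermat.Prelude.Def_AlgebraicCurve_Repartitions
import Fermat.Agent.S17.FND.RR68.Riemann

/-!
# The Riemann bound from a separating element (helper68, S27)

If `x` has pole divisor `B` of degree `n`, there are `n` elements `u i` without poles outside the
poles of `x` with `x^j * u i` linearly independent over `K`, and every "finite" place can be given
arbitrarily deep poles by functions without finite zeros, then `deg D - l(D)` is bounded.
-/

set_option autoImplicit false

namespace Fermat.Agent.S17.FND.RR68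

open AlgebraicCurve WithZero Fermat.Agent.S24.A564.SO

variable {K F : Type*} [Field K] [Field F] [Algebra K F]

theorem exists_pole_function_finset (x : F)
    (hc : ∀ v : Place K F, 0 ≤ v.ord x → ∀ k : ℕ, ∃ z : F, z ≠ 0 ∧
      (∀ w : Place K F, 0 ≤ w.ord x → w.ord z ≤ 0) ∧ v.ord z ≤ -(k : ℤ))
    (k : ℕ) (T : Finset (Place K F)) (hT : ∀ v ∈ T, 0 ≤ v.ord x) :
    ∃ z : F, z ≠ 0 ∧ (∀ w : Place K F, 0 ≤ w.ord x → w.ord z ≤ 0) ∧
      ∀ v ∈ T, v.ord z ≤ -(k : ℤ) := by
  classical
  induction T using Finset.induction_on with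
  | empty => exact ⟨1, one_ne_zero, fun w _ => by simp, fun v hv => by simp at hv⟩
  | insert a s ha ih =>
    obtain ⟨z₁, hz1, h1, h1'⟩ := ih (fun v hv => hT v (Finset.mem_insert_of_mem hv))
    obtain ⟨z₂, hz2, h2, h2'⟩ := hc a (hT a (Finset.mem_insert_self a s)) k
    refine ⟨z₁ * z₂, mul_ne_zero hz1 hz2, fun w hw => ?_, fun v hv => ?_⟩
    · rw [w.ord_mul hz1 hz2]
      have := h1 w hw
      have := h2 w hw
      omega
    · rw [v.ord_mul hz1 hz2]
      rcases Finset.mem_insert.mp hv with rfl | hv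
      · have := h1 v (hT v (Finset.mem_insert_self v s))
        omega
      · have := h1' v hv
        have := h2 v (hT v (Finset.mem_insert_of_mem hv))
        omega

/-- the Riemann bound from a separating element. -/
theorem exists_riemann_bound_of_separating
    (hfin : ∀ v : Place K F, Module.Finite K v.ResidueField)
    [HasPrincipalDivisors K F] [Nonempty (Place K F)]
    (x : F) (B : Divisor K F) (hB : ∀ v, B v = max 0 (-v.ord x))
    (n : ℕ) (hdeg : Divisor.degree B = n)
    (u : Fin n → F) (hu : ∀ i (v : Place K F), 0 ≤ v.ord x → 0 ≤ v.ord (u i))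
    (hli : LinearIndependent K (fun p : Fin n × ℕ => x ^ p.2 * u p.1))
    (hc : ∀ v : Place K F, 0 ≤ v.ord x → ∀ k : ℕ, ∃ z : F, z ≠ 0 ∧
      (∀ w : Place K F, 0 ≤ w.ord x → w.ord z ≤ 0) ∧ v.ord z ≤ -(k : ℤ)) :
    ∃ c : ℤ, ∀ D : Divisor K F, Divisor.degree D - ell D ≤ c := by
  classical
  have hx0 : Fin n → x ≠ 0 := by
    rintro i rfl
    have := hli.ne_zero (i, 1)
    simp at this
  have hu0 : ∀ i, u i ≠ 0 := by
    intro i h
    have := hli.ne_zero (i, 0)
    simp [h] at this
  have hB0 : ∀ v, 0 ≤ B v := fun v => by rw [hB v]; exact le_max_left _ _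
  have hBx : ∀ v, -B v ≤ v.ord x := fun v => by
    have := le_max_right 0 (-v.ord x); rw [← hB v] at this; omega
  have hBfin : ∀ v, 0 ≤ v.ord x → B v = 0 := fun v hv => by
    rw [hB v]; exact max_eq_left (by omega)
  have hBinf : ∀ v, v.ord x < 0 → 1 ≤ B v ∧ v ∈ B.support := fun v hv => by
    have h1 : 1 ≤ B v := by
      have := le_max_right 0 (-v.ord x); rw [← hB v] at this; omega
    refine ⟨h1, ?_⟩
    rw [Finsupp.mem_support_iff]; omega
  -- step 1: a common pole bound for the `u i`
  set m0 : ℕ := ∑ i, ∑ v ∈ B.support, (-v.ord (u i)).toNat with hm0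
  have hm0' : ∀ i, ∀ v ∈ B.support, -v.ord (u i) ≤ m0 := by
    intro i v hv
    have h1 : (-v.ord (u i)).toNat ≤ ∑ v ∈ B.support, (-v.ord (u i)).toNat :=
      Finset.single_le_sum (f := fun v : Place K F => (-v.ord (u i)).toNat)
        (fun _ _ => Nat.zero_le _) hv
    have h2 : ∑ v ∈ B.support, (-v.ord (u i)).toNat ≤ m0 :=
      Finset.single_le_sum (f := fun i => ∑ v ∈ B.support, (-v.ord (u i)).toNat)
        (fun _ _ => Nat.zero_le _) (Finset.mem_univ i)
    have h3 := Int.self_le_toNat (-v.ord (u i))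
    have : ((-v.ord (u i)).toNat : ℤ) ≤ m0 := by exact_mod_cast h1.trans h2
    omega
  -- step 2: membership in `L((m + m0) B)`
  have hmem : ∀ (m : ℕ) (i : Fin n) (j : ℕ), j ≤ m →
      x ^ j * u i ∈ riemannRochSpace (((m + m0 : ℕ) : ℤ) • B) := by
    intro m i j hj
    rw [mem_riemannRochSpace_iff]
    intro v
    right
    rw [v.ord_mul (pow_ne_zero j (hx0 i)) (hu0 i), ← zpow_natCast, v.ord_zpow, Finsupp.smul_apply,
      smul_eq_mul]
    by_cases hv : 0 ≤ v.ord x
    · have h1 := hu i v hv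
      rw [hBfin v hv, mul_zero, neg_zero]
      positivity
    · have hv' : v.ord x < 0 := not_le.mp hv
      obtain ⟨hB1, hBs⟩ := hBinf v hv'
      have h1 := hm0' i v hBs
      have h2 := hBx v
      have h3 : (j : ℤ) ≤ m := by exact_mod_cast hj
      have h4 : (j : ℤ) * v.ord x ≥ -(m * B v) := by nlinarith
      have h5 : (m0 : ℤ) ≤ m0 * B v := by nlinarith [Int.natCast_nonneg m0]
      push_cast
      nlinarith
  -- step 3: the bound on the family
  have hbound : ∀ m : ℕ, Divisor.degree (((m + m0 : ℕ) : ℤ) • B)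
      - ell (((m + m0 : ℕ) : ℤ) • B) ≤ (n : ℤ) * m0 := by
    intro m
    haveI := finite_riemannRochSpace hfin (((m + m0 : ℕ) : ℤ) • B)
    let w : Fin n × Fin (m + 1) → riemannRochSpace (((m + m0 : ℕ) : ℤ) • B) :=
      fun p => ⟨x ^ (p.2 : ℕ) * u p.1, hmem m p.1 p.2 (Nat.lt_succ_iff.mp p.2.2)⟩
    have hw : LinearIndependent K w := by
      apply LinearIndependent.of_comp (Submodule.subtype _)
      have hinj : Function.Injective (fun p : Fin n × Fin (m + 1) => ((p.1, (p.2 : ℕ)) : Fin n × ℕ)) := by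
        intro p q hpq
        simp only [Prod.mk.injEq] at hpq
        exact Prod.ext hpq.1 (Fin.ext hpq.2)
      exact hli.comp _ hinj
    have hcard := hw.fintype_card_le_finrank
    rw [Fintype.card_prod, Fintype.card_fin, Fintype.card_fin] at hcard
    have hcard' : (n : ℤ) * (m + 1) ≤ ell (((m + m0 : ℕ) : ℤ) • B) := by
      unfold ell; exact_mod_cast hcard
    have hd : Divisor.degree (((m + m0 : ℕ) : ℤ) • B) = ((m : ℤ) + m0) * n := by
      rw [map_zsmul, hdeg, smul_eq_mul]; push_cast; ring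
    rw [hd]
    nlinarith [Int.natCast_nonneg n, Int.natCast_nonneg m0]
  -- step 4: cofinality
  refine ⟨(n : ℤ) * m0, degree_sub_ell_le_of_cofinal hfin
    (fun m : ℕ => ((m + m0 : ℕ) : ℤ) • B) _ hbound fun D => ?_⟩
  set k : ℕ := ∑ v ∈ D.support, (D v).toNat with hk
  have hk' : ∀ v, D v ≤ k := by
    intro v
    by_cases hv : v ∈ D.support
    · have h1 : (D v).toNat ≤ k :=
        Finset.single_le_sum (f := fun v : Place K F => (D v).toNat) (fun _ _ => Nat.zero_le _) hv
      have h3 := Int.self_le_toNat (D v)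
      have : ((D v).toNat : ℤ) ≤ k := by exact_mod_cast h1
      omega
    · rw [Finsupp.notMem_support_iff.mp hv]
      exact Int.natCast_nonneg k
  obtain ⟨z, hz, hz1, hz2⟩ := exists_pole_function_finset x hc k
    (D.support.filter fun v => 0 ≤ v.ord x) (fun v hv => (Finset.mem_filter.mp hv).2)
  obtain ⟨E, hE, -⟩ := HasPrincipalDivisors.exists_divisor (K := K) z hz
  set m : ℕ := ∑ w ∈ B.support, (D w + w.ord z).toNat with hm
  have hm' : ∀ w ∈ B.support, D w + w.ord z ≤ m := by
    intro w hw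
    have h1 : (D w + w.ord z).toNat ≤ m :=
      Finset.single_le_sum (f := fun w : Place K F => (D w + w.ord z).toNat)
        (fun _ _ => Nat.zero_le _) hw
    have h3 := Int.self_le_toNat (D w + w.ord z)
    have : ((D w + w.ord z).toNat : ℤ) ≤ m := by exact_mod_cast h1
    omega
  refine ⟨m, z, E, hz, hE, ?_⟩
  rw [Finsupp.le_def]
  intro w
  rw [Finsupp.add_apply, hE w, Finsupp.smul_apply, smul_eq_mul]
  by_cases hw : 0 ≤ w.ord x
  · rw [hBfin w hw, mul_zero]
    by_cases hwD : w ∈ D.support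
    · have h1 := hz2 w (Finset.mem_filter.mpr ⟨hwD, hw⟩)
      have h2 := hk' w
      omega
    · rw [Finsupp.notMem_support_iff.mp hwD]
      have := hz1 w hw
      omega
  · have hw' : w.ord x < 0 := not_le.mp hw
    obtain ⟨hB1, hBs⟩ := hBinf w hw'
    have h1 := hm' w hBs
    push_cast
    nlinarith [Int.natCast_nonneg m0, Int.natCast_nonneg m]

end Fermat.Agent.S17.FND.RR68
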