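import Mathlib
import Fermat.Prelude.Def_AlgebraicCurve_Repartitions
import Fermat.Agent.S24.A564.SumOrd
import Fermat.Agent.S17.FND.RR68.Bound

/-!
# Riemann bound for a function field with a separating element, and `l(0) = 1` (helper68, S27)
-/

set_option autoImplicit false

namespace Fermat.Agent.S17.FND.RR68

open AlgebraicCurve WithZero Fermat.Agent.S24.A564.SO IntermediateField Polynomial

variable {K F : Type*} [Field K] [Field F] [Algebra K F]

theorem ord_aeval_nonneg (x : F) (w : Place K F) (hw : 0 ≤ w.ord x) (q : K[X]) :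
    0 ≤ w.ord (aeval x q) := by
  apply Place_ord_nonneg_of_mem
  have h1 : aeval x q ∈ Algebra.adjoin K {x} := aeval_mem_adjoin_singleton K x
  exact Place_adjoin_le w (Place_mem_of_ord_nonneg w hw) h1

theorem exists_poly_vanishing (hfin : ∀ v : Place K F, Module.Finite K v.ResidueField)
    (x : F) (hx : Transcendental K x) (v : Place K F) (hv : 0 ≤ v.ord x) :
    ∃ q : K[X], aeval x q ≠ 0 ∧ 1 ≤ v.ord (aeval x q) := by
  have hxv : x ∈ v.toValuationSubring := Place_mem_of_ord_nonneg v hv
  haveI := hfin v
  obtain ⟨q, hq0, hq⟩ : IsAlgebraic K (IsLocalRing.residue v.toValuationSubring ⟨x, hxv⟩) :=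
    Algebra.IsAlgebraic.isAlgebraic _
  refine ⟨q, fun h => hx ⟨q, hq0, h⟩, ?_⟩
  have h1 : ((aeval (⟨x, hxv⟩ : v.toValuationSubring) q : v.toValuationSubring) : F)
      = aeval x q := by
    have := aeval_algebraMap_apply (A := v.toValuationSubring) F
      (⟨x, hxv⟩ : v.toValuationSubring) q
    exact this.symm
  have h2 : IsLocalRing.residue v.toValuationSubring
      (aeval (⟨x, hxv⟩ : v.toValuationSubring) q) = 0 := by
    rw [← hq]
    exact (aeval_algHom_apply
      (IsScalarTower.toAlgHom K v.toValuationSubring v.ResidueField) _ q).symm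
  rw [IsLocalRing.residue_eq_zero_iff, mem_maximalIdeal_iff_ord, h1] at h2
  rcases h2 with h2 | h2
  · exact absurd ⟨q, hq0, h2⟩ hx
  · exact h2

theorem exists_poly_finset (hfin : ∀ v : Place K F, Module.Finite K v.ResidueField)
    (x : F) (hx : Transcendental K x) (k : ℕ) (T : Finset (Place K F))
    (hT : ∀ v ∈ T, 0 ≤ v.ord x) :
    ∃ q : K[X], aeval x q ≠ 0 ∧ ∀ v ∈ T, (k : ℤ) ≤ v.ord (aeval x q) := by
  classical
  induction T using Finset.induction_on with
  | empty => exact ⟨1, by simp, fun v hv => by simp at hv⟩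
  | insert a s ha ih =>
    obtain ⟨q₁, hq1, h1⟩ := ih (fun v hv => hT v (Finset.mem_insert_of_mem hv))
    obtain ⟨q₂, hq2, h2⟩ := exists_poly_vanishing hfin x hx a (hT a (Finset.mem_insert_self a s))
    refine ⟨q₁ * q₂ ^ k, ?_, fun v hv => ?_⟩
    · rw [map_mul, map_pow]
      exact mul_ne_zero hq1 (pow_ne_zero k hq2)
    · have hvx : 0 ≤ v.ord x := hT v hv
      rw [map_mul, map_pow, v.ord_mul hq1 (pow_ne_zero k hq2), ← zpow_natCast, v.ord_zpow]
      have e1 := ord_aeval_nonneg x v hvx q₁
      have e2 := ord_aeval_nonneg x v hvx q₂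
      rcases Finset.mem_insert.mp hv with rfl | hv
      · nlinarith [Int.natCast_nonneg k]
      · have := h1 v hv
        nlinarith [Int.natCast_nonneg k]

theorem exists_pole_function (hfin : ∀ v : Place K F, Module.Finite K v.ResidueField)
    (x : F) (hx : Transcendental K x) (v : Place K F) (hv : 0 ≤ v.ord x) (k : ℕ) :
    ∃ z : F, z ≠ 0 ∧ (∀ w : Place K F, 0 ≤ w.ord x → w.ord z ≤ 0) ∧ v.ord z ≤ -(k : ℤ) := by
  classical
  obtain ⟨q, hq, h⟩ := exists_poly_finset hfin x hx k {v} (fun w hw => by
    rw [Finset.mem_singleton] at hw; rw [hw]; exact hv)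
  refine ⟨(aeval x q)⁻¹, inv_ne_zero hq, fun w hw => ?_, ?_⟩
  · rw [w.ord_inv]
    have := ord_aeval_nonneg x w hw q
    omega
  · rw [v.ord_inv]
    have := h v (Finset.mem_singleton_self v)
    omega

theorem exists_basis_no_finite_poles (hfin : ∀ v : Place K F, Module.Finite K v.ResidueField)
    [HasPrincipalDivisors K F] (x : F) (hx : Transcendental K x) [FiniteDimensional K⟮x⟯ F] :
    ∃ u : Fin (Module.finrank K⟮x⟯ F) → F, LinearIndependent K⟮x⟯ u ∧
      ∀ i (v : Place K F), 0 ≤ v.ord x → 0 ≤ v.ord (u i) := by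
  classical
  let b := Module.finBasis K⟮x⟯ F
  have hb0 : ∀ i, b i ≠ 0 := fun i => b.ne_zero i
  have key : ∀ i, ∃ q : K[X], aeval x q ≠ 0 ∧
      ∀ v : Place K F, 0 ≤ v.ord x → 0 ≤ v.ord (aeval x q * b i) := by
    intro i
    obtain ⟨E, hE, -⟩ := HasPrincipalDivisors.exists_divisor (K := K) (b i) (hb0 i)
    set k : ℕ := ∑ w ∈ E.support, (-E w).toNat with hk
    have hk' : ∀ w, -E w ≤ k := by
      intro w
      by_cases hw : w ∈ E.support
      · have h1 : (-E w).toNat ≤ k :=
          Finset.single_le_sum (f := fun w : Place K F => (-E w).toNat)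
            (fun _ _ => Nat.zero_le _) hw
        have h3 := Int.self_le_toNat (-E w)
        have : ((-E w).toNat : ℤ) ≤ k := by exact_mod_cast h1
        omega
      · rw [Finsupp.notMem_support_iff.mp hw]
        simp
    obtain ⟨q, hq, h⟩ := exists_poly_finset hfin x hx k
      (E.support.filter fun v => 0 ≤ v.ord x) (fun v hv => (Finset.mem_filter.mp hv).2)
    refine ⟨q, hq, fun v hv => ?_⟩
    rw [v.ord_mul hq (hb0 i), ← hE v]
    by_cases hvE : v ∈ E.support
    · have := h v (Finset.mem_filter.mpr ⟨hvE, hv⟩)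
      have := hk' v
      omega
    · rw [Finsupp.notMem_support_iff.mp hvE]
      have := ord_aeval_nonneg x v hv q
      omega
  choose q hq0 hq using key
  have hmem : ∀ i, aeval x (q i) ∈ K⟮x⟯ := fun i =>
    IntermediateField.algebra_adjoin_le_adjoin K {x} (aeval_mem_adjoin_singleton K x)
  let c : Fin (Module.finrank K⟮x⟯ F) → (K⟮x⟯)ˣ := fun i =>
    Units.mk0 ⟨aeval x (q i), hmem i⟩ (fun h => hq0 i (congrArg Subtype.val h))
  refine ⟨fun i => aeval x (q i) * b i, ?_, hq⟩
  have := b.linearIndependent.units_smul c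
  have e : (fun i => aeval x (q i) * b i) = c • ⇑b := by
    funext i
    show _ = (c i : K⟮x⟯) • b i
    rw [Algebra.smul_def]
    rfl
  rw [e]
  exact this

theorem linearIndependent_pow_of_transcendental (x : F) (hx : Transcendental K x) :
    LinearIndependent K (fun j : ℕ => x ^ j) := by
  have h1 := (Polynomial.basisMonomials K).linearIndependent
  have h2 : LinearMap.ker (aeval x : K[X] →ₐ[K] F).toLinearMap = ⊥ :=
    LinearMap.ker_eq_bot.mpr (transcendental_iff_injective.mp hx)
  have h3 := h1.map' _ h2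
  have e : ((aeval x : K[X] →ₐ[K] F).toLinearMap ∘ ⇑(Polynomial.basisMonomials K))
      = fun j : ℕ => x ^ j := by
    funext j
    simp
  rw [e] at h3
  exact h3

theorem linearIndependent_pow_mul (x : F) (hx : Transcendental K x) {n : ℕ} (u : Fin n → F)
    (hu : LinearIndependent K⟮x⟯ u) :
    LinearIndependent K (fun p : Fin n × ℕ => x ^ p.2 * u p.1) := by
  have hb : LinearIndependent K (fun j : ℕ => (AdjoinSimple.gen K x) ^ j) := by
    have e : (K⟮x⟯.val.toLinearMap ∘ fun j : ℕ => (AdjoinSimple.gen K x) ^ j)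
        = fun j : ℕ => x ^ j := by
      funext j
      simp
    exact LinearIndependent.of_comp (K⟮x⟯.val.toLinearMap)
      (by rw [e]; exact linearIndependent_pow_of_transcendental x hx)
  have h := linearIndependent_smul hb hu
  have h2 := h.comp Prod.swap Prod.swap_injective
  have e : (fun p : Fin n × ℕ => x ^ p.2 * u p.1)
      = (fun p : ℕ × Fin n => AdjoinSimple.gen K x ^ p.1 • u p.2) ∘ Prod.swap := by
    funext p
    show x ^ p.2 * u p.1 = (AdjoinSimple.gen K x ^ p.2) • u p.1
    rw [Algebra.smul_def, map_pow, AdjoinSimple.algebraMap_gen]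
  rw [e]
  exact h2

/-- the Riemann bound for a function field with a transcendental `x` such that `F/K(x)` is
finite and the pole divisor of `x` has degree `[F : K(x)]`. -/
theorem exists_riemann_bound (hfin : ∀ v : Place K F, Module.Finite K v.ResidueField)
    [HasPrincipalDivisors K F] [Nonempty (Place K F)]
    (x : F) (hx : Transcendental K x) [FiniteDimensional K⟮x⟯ F]
    (B : Divisor K F) (hB : ∀ v, B v = max 0 (-v.ord x))
    (hdeg : Divisor.degree B = Module.finrank K⟮x⟯ F) :
    ∃ c : ℤ, ∀ D : Divisor K F, Divisor.degree D - ell D ≤ c := by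
  obtain ⟨u, hu, hu'⟩ := exists_basis_no_finite_poles hfin x hx
  exact exists_riemann_bound_of_separating hfin x B hB _ hdeg u hu'
    (linearIndependent_pow_mul x hx u hu) (fun v hv k => exists_pole_function hfin x hx v hv k)

/-- over an algebraically closed constant field, `L(0) = K`. -/
theorem ell_zero_eq_one [IsAlgClosed K] (hfin : ∀ v : Place K F, Module.Finite K v.ResidueField)
    [HasPrincipalDivisors K F] [Nonempty (Place K F)] : ell (0 : Divisor K F) = 1 := by
  classical
  unfold ell
  have h1mem : (1 : F) ∈ riemannRochSpace (0 : Divisor K F) := by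
    rw [mem_riemannRochSpace_iff]
    intro v
    right
    simp
  rw [finrank_eq_one_iff']
  refine ⟨⟨1, h1mem⟩, fun h => one_ne_zero (congrArg Subtype.val h), ?_⟩
  rintro ⟨f, hf⟩
  let v : Place K F := Classical.arbitrary _
  haveI := hfin v
  have hfv : f ∈ v.toValuationSubring := by
    rcases (mem_riemannRochSpace_iff.mp hf) v with h | h
    · rw [h]; exact zero_mem _
    · exact Place_mem_of_ord_nonneg v (by simpa using h)
  have : Algebra.IsIntegral K v.ResidueField := Algebra.IsIntegral.of_finite K v.ResidueField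
  have hbij : Function.Bijective (algebraMap K v.ResidueField) :=
    IsAlgClosed.algebraMap_bijective_of_isIntegral
  obtain ⟨a, ha⟩ := hbij.2 (IsLocalRing.residue v.toValuationSubring ⟨f, hfv⟩)
  refine ⟨a, Subtype.ext ?_⟩
  show a • (1 : F) = f
  rw [Algebra.smul_def, mul_one]
  by_contra hne
  have hne' : f - algebraMap K F a ≠ 0 := sub_ne_zero.mpr (Ne.symm hne)
  obtain ⟨E, hE, hE0⟩ := HasPrincipalDivisors.exists_divisor (K := K) _ hne'
  -- `f - a` has no poles
  have hnn : ∀ w : Place K F, 0 ≤ E w := by
    intro w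
    rw [hE w]
    apply Place_ord_nonneg_of_mem
    refine sub_mem ?_ (w.algebraMap_mem' a)
    rcases (mem_riemannRochSpace_iff.mp hf) w with h | h
    · rw [h]; exact zero_mem _
    · exact Place_mem_of_ord_nonneg w (by simpa using h)
  -- and a zero at `v`
  have hv1 : 1 ≤ E v := by
    rw [hE v]
    have hmem : (⟨f, hfv⟩ - algebraMap K v.toValuationSubring a : v.toValuationSubring)
        ∈ IsLocalRing.maximalIdeal v.toValuationSubring := by
      rw [← IsLocalRing.residue_eq_zero_iff, map_sub, ← ha,
        IsScalarTower.algebraMap_apply K v.toValuationSubring v.ResidueField,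
        IsLocalRing.ResidueField.algebraMap_eq, sub_self]
    rw [mem_maximalIdeal_iff_ord] at hmem
    rcases hmem with h | h
    · exact absurd h hne'
    · exact h
  have hle : Finsupp.single v (1 : ℤ) ≤ E := by
    rw [Finsupp.le_def]
    intro w
    rw [Finsupp.single_apply]
    split_ifs with hw
    · subst hw; exact hv1
    · exact hnn w
  have hd := degree_mono hle
  rw [Divisor.degree_single, hE0] at hd
  have hP : (1 : ℤ) ≤ v.deg := by exact_mod_cast place_deg_pos v
  omega

theorem finite_residue_of_bijective (v : Place K F)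
    (h : Function.Bijective (algebraMap K v.ResidueField)) : Module.Finite K v.ResidueField :=
  Module.Finite.of_surjective (Algebra.linearMap K v.ResidueField) h.2

end Fermat.Agent.S17.FND.RR68
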