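import Mathlib
import Fermat.Prelude.Def_AlgebraicCurve_Repartitions
import Fermat.Agent.S17.FND.RR68.Riemann

/-!
# Weil differentials and duality, abstract core (helper68, S27)

`weilOmega D` = space of `K`-linear forms on the repartitions vanishing on `A(D) + F`.
-/

set_option autoImplicit false

namespace Fermat.Agent.S17.FND.RR68

open AlgebraicCurve WithZero Fermat.Agent.S24.A564.SO

variable {K F : Type*} [Field K] [Field F] [Algebra K F]

/-- Weil differentials vanishing on `A(D) + F`. -/
def weilOmega (D : Divisor K F) : Submodule K (Module.Dual K ↥(repartitions K F)) :=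
  (repartitionsOf D ⊔ principalRepartitions K F).dualAnnihilator

theorem mem_weilOmega_iff {D : Divisor K F} {ω : Module.Dual K ↥(repartitions K F)} :
    ω ∈ weilOmega D ↔ (∀ α ∈ repartitionsOf D, ω α = 0) ∧
      (∀ α ∈ principalRepartitions K F, ω α = 0) := by
  unfold weilOmega
  rw [Submodule.mem_dualAnnihilator]
  constructor
  · intro h
    exact ⟨fun α hα => h α (Submodule.mem_sup_left hα), fun α hα => h α (Submodule.mem_sup_right hα)⟩
  · rintro ⟨h1, h2⟩ α hα
    obtain ⟨a, ha, b, hb, rfl⟩ := Submodule.mem_sup.mp hα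
    rw [map_add, h1 a ha, h2 b hb, add_zero]

theorem weilOmega_anti {D D' : Divisor K F} (h : D ≤ D') : weilOmega D' ≤ weilOmega D := by
  intro ω hω
  rw [mem_weilOmega_iff] at hω ⊢
  exact ⟨fun α hα => hω.1 α (repartitionsOf_mono h hα), hω.2⟩

/-- `dim Ω(D) = i(D)`. -/
theorem finrank_weilOmega (D : Divisor K F) [Module.Finite K (H1 D)] :
    Module.finrank K (weilOmega D) = Module.finrank K (H1 D) := by
  have e := Submodule.dualQuotEquivDualAnnihilator
    (repartitionsOf D ⊔ principalRepartitions K F)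
  have h1 : Module.finrank K (weilOmega D) = Module.finrank K (Module.Dual K (H1 D)) :=
    e.finrank_eq.symm
  rw [h1, Subspace.dual_finrank_eq]

theorem finite_weilOmega (D : Divisor K F) [Module.Finite K (H1 D)] :
    Module.Finite K (weilOmega D) :=
  Module.Finite.equiv (Submodule.dualQuotEquivDualAnnihilator
    (repartitionsOf D ⊔ principalRepartitions K F))

/-- multiplication by `x` on repartitions, `K`-linear. -/
def mulRep (x : F) : ↥(repartitions K F) →ₗ[K] ↥(repartitions K F) where
  toFun α := x • α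
  map_add' := smul_add x
  map_smul' c α := by
    apply Subtype.ext
    funext v
    show x * (c • (α : Place K F → F) v) = c • (x * (α : Place K F → F) v)
    rw [Algebra.smul_def, Algebra.smul_def]
    ring

@[simp] theorem mulRep_apply (x : F) (α : ↥(repartitions K F)) (v : Place K F) :
    ((mulRep x α : ↥(repartitions K F)) : Place K F → F) v = x * (α : Place K F → F) v := rfl

theorem mulRep_mulRep (x y : F) (α : ↥(repartitions K F)) :
    mulRep x (mulRep y α) = mulRep (x * y) α := by
  apply Subtype.ext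
  funext v
  simp [mul_assoc]

theorem mulRep_one (α : ↥(repartitions K F)) : mulRep (1 : F) α = α := by
  apply Subtype.ext
  funext v
  simp

/-- the twist `x ω`, as a `K`-linear map in `x`. -/
def twistMap (ω : Module.Dual K ↥(repartitions K F)) : F →ₗ[K] Module.Dual K ↥(repartitions K F) where
  toFun x := ω ∘ₗ mulRep x
  map_add' x y := by
    ext α
    show ω (mulRep (x + y) α) = ω (mulRep x α) + ω (mulRep y α)
    rw [← map_add]
    congr 1
    apply Subtype.ext
    funext v
    simp [add_mul]
  map_smul' c x := by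
    ext α
    show ω (mulRep (c • x) α) = c • ω (mulRep x α)
    rw [← map_smul]
    congr 1
    apply Subtype.ext
    funext v
    show (c • x) * (α : Place K F → F) v = c • (x * (α : Place K F → F) v)
    rw [Algebra.smul_def, Algebra.smul_def]
    ring

theorem twistMap_apply (ω : Module.Dual K ↥(repartitions K F)) (x : F) (α : ↥(repartitions K F)) :
    twistMap ω x α = ω (mulRep x α) := rfl

theorem twistMap_twistMap (ω : Module.Dual K ↥(repartitions K F)) (x y : F) :
    twistMap (twistMap ω x) y = twistMap ω (x * y) := by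
  ext α
  rw [twistMap_apply, twistMap_apply, twistMap_apply, mulRep_mulRep]

theorem twistMap_one (ω : Module.Dual K ↥(repartitions K F)) : twistMap ω 1 = ω := by
  ext α
  rw [twistMap_apply, mulRep_one]

theorem twistMap_zero_left (x : F) :
    twistMap (0 : Module.Dual K ↥(repartitions K F)) x = 0 := by
  ext α
  rw [twistMap_apply]; rfl

theorem twistMap_injective {ω : Module.Dual K ↥(repartitions K F)} (hω : ω ≠ 0) :
    Function.Injective (twistMap ω) := by
  rw [← LinearMap.ker_eq_bot, Submodule.eq_bot_iff]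
  intro x hx
  rw [LinearMap.mem_ker] at hx
  by_contra hx0
  apply hω
  have := twistMap_twistMap ω x x⁻¹
  rw [hx, twistMap_zero_left, mul_inv_cancel₀ hx0, twistMap_one] at this
  exact this.symm

theorem mulRep_mem_repartitionsOf {D E : Divisor K F} {x : F} (hx : x ≠ 0)
    (hE : ∀ v, E v = v.ord x) {α : ↥(repartitions K F)} (hα : α ∈ repartitionsOf (D + E)) :
    mulRep x α ∈ repartitionsOf D := by
  rw [mem_repartitionsOf_iff] at hα ⊢
  intro v
  rw [mulRep_apply]
  rcases hα v with h | h
  · left; rw [h, mul_zero]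
  · by_cases h0 : (α : Place K F → F) v = 0
    · left; rw [h0, mul_zero]
    right
    rw [v.ord_mul hx h0]
    rw [Finsupp.add_apply, hE v] at h
    omega

theorem mulRep_mem_principal {x : F} {α : ↥(repartitions K F)}
    (hα : α ∈ principalRepartitions K F) : mulRep x α ∈ principalRepartitions K F := by
  rw [mem_principalRepartitions_iff] at hα ⊢
  obtain ⟨f, hf⟩ := hα
  refine ⟨x * f, ?_⟩
  funext v
  rw [mulRep_apply, hf]

/-- `(xω) ≥ (x) + D` if `(ω) ≥ D`. -/
theorem twistMap_mem_weilOmega {D E : Divisor K F} {x : F} (hx : x ≠ 0)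
    (hE : ∀ v, E v = v.ord x) {ω : Module.Dual K ↥(repartitions K F)} (hω : ω ∈ weilOmega D) :
    twistMap ω x ∈ weilOmega (D + E) := by
  rw [mem_weilOmega_iff] at hω ⊢
  exact ⟨fun α hα => hω.1 _ (mulRep_mem_repartitionsOf hx hE hα),
    fun α hα => hω.2 _ (mulRep_mem_principal hα)⟩

/-- `A(D₁) + A(D₂) = A(D₁ ⊔ D₂)`. -/
theorem repartitionsOf_sup [HasPrincipalDivisors K F] (D₁ D₂ : Divisor K F) :
    repartitionsOf D₁ ⊔ repartitionsOf D₂ = repartitionsOf (D₁ ⊔ D₂) := by
  classical
  apply le_antisymm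
  · exact sup_le (repartitionsOf_mono le_sup_left) (repartitionsOf_mono le_sup_right)
  · intro α hα
    have hfin := repartitions_finite_poles α
    let a : Place K F → F := fun v => if D₂ v ≤ D₁ v then (α : Place K F → F) v else 0
    let b : Place K F → F := fun v => if D₂ v ≤ D₁ v then 0 else (α : Place K F → F) v
    have ha : a ∈ repartitions K F := by
      apply mem_repartitions_of_finite
      refine hfin.subset fun v hv => ?_
      rw [Set.mem_setOf_eq] at hv ⊢
      intro hcon
      apply hv
      show v.adicValuation (if D₂ v ≤ D₁ v then (α : Place K F → F) v else 0) ≤ 1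
      split_ifs
      · exact hcon
      · simp
    have hb : b ∈ repartitions K F := by
      apply mem_repartitions_of_finite
      refine hfin.subset fun v hv => ?_
      rw [Set.mem_setOf_eq] at hv ⊢
      intro hcon
      apply hv
      show v.adicValuation (if D₂ v ≤ D₁ v then 0 else (α : Place K F → F) v) ≤ 1
      split_ifs
      · simp
      · exact hcon
    have hsum : α = ⟨a, ha⟩ + ⟨b, hb⟩ := by
      apply Subtype.ext
      funext v
      show (α : Place K F → F) v = (if D₂ v ≤ D₁ v then (α : Place K F → F) v else 0)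
        + (if D₂ v ≤ D₁ v then 0 else (α : Place K F → F) v)
      split_ifs <;> simp
    rw [hsum]
    refine Submodule.add_mem_sup ?_ ?_
    · intro v
      show v.adicValuation (if D₂ v ≤ D₁ v then (α : Place K F → F) v else 0) ≤ exp (D₁ v)
      split_ifs with h
      · have := hα v
        rw [Finsupp.sup_apply, sup_eq_left.mpr h] at this
        exact this
      · simp
    · intro v
      show v.adicValuation (if D₂ v ≤ D₁ v then 0 else (α : Place K F → F) v) ≤ exp (D₂ v)
      split_ifs with h
      · simp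
      · have := hα v
        rw [Finsupp.sup_apply, sup_eq_right.mpr (le_of_not_ge h)] at this
        exact this

theorem weilOmega_sup [HasPrincipalDivisors K F] {D₁ D₂ : Divisor K F}
    {ω : Module.Dual K ↥(repartitions K F)} (h1 : ω ∈ weilOmega D₁) (h2 : ω ∈ weilOmega D₂) :
    ω ∈ weilOmega (D₁ ⊔ D₂) := by
  rw [mem_weilOmega_iff] at h1 h2 ⊢
  refine ⟨fun α hα => ?_, h1.2⟩
  rw [← repartitionsOf_sup] at hα
  obtain ⟨a, ha, b, hb, rfl⟩ := Submodule.mem_sup.mp hα
  rw [map_add, h1.1 a ha, h2.1 b hb, add_zero]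

/-- strict monotonicity of the degree. -/
theorem eq_of_le_of_degree_le (hfin : ∀ v : Place K F, Module.Finite K v.ResidueField)
    {D D' : Divisor K F} (h : D ≤ D') (hd : Divisor.degree D' ≤ Divisor.degree D) : D = D' := by
  classical
  by_contra hne
  obtain ⟨P, hP⟩ := exists_lt_of_le_of_ne h hne
  have h1 : D + Finsupp.single P 1 ≤ D' := by
    rw [Finsupp.le_def]
    intro v
    rw [Finsupp.add_apply, Finsupp.single_apply]
    have := Finsupp.le_def.mp h v
    split_ifs with hv
    · subst hv; omega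
    · omega
  have h2 := degree_mono h1
  rw [map_add, Divisor.degree_single] at h2
  haveI := hfin P
  have hP1 : (1 : ℤ) ≤ P.deg := by exact_mod_cast place_deg_pos P
  omega

section duality

variable (hfin : ∀ v : Place K F, Module.Finite K v.ResidueField)
  [HasPrincipalDivisors K F] [Nonempty (Place K F)]
  (c : ℤ) (hR : ∀ D : Divisor K F, Divisor.degree D - ell D ≤ c)
include hfin hR

theorem weilOmega_eq_bot_of_finrank_H1 {D : Divisor K F} (h : Module.finrank K (H1 D) = 0) :
    weilOmega D = ⊥ := by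
  haveI := finite_H1 hfin c hR D
  haveI := finite_weilOmega D
  have := finrank_weilOmega D
  rw [h] at this
  exact Submodule.finrank_eq_zero.mp this

/-- the divisor of a nonzero Weil differential. -/
theorem exists_max_divisor {ω : Module.Dual K ↥(repartitions K F)} (hω : ω ≠ 0)
    {D0 : Divisor K F} (h0 : ω ∈ weilOmega D0) :
    ∃ W : Divisor K F, ω ∈ weilOmega W ∧ ∀ D, ω ∈ weilOmega D → D ≤ W := by
  obtain ⟨c', hc'⟩ := exists_degree_bound_H1_eq_zero hfin c hR
  have hbd : ∀ D : Divisor K F, ω ∈ weilOmega D → Divisor.degree D < c' := by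
    intro D hD
    by_contra hcon
    have := weilOmega_eq_bot_of_finrank_H1 hfin c hR (hc' D (not_lt.mp hcon))
    rw [this, Submodule.mem_bot] at hD
    exact hω hD
  obtain ⟨n, ⟨W, hW, hWn⟩, hmax⟩ := Int.exists_greatest_of_bdd
    (P := fun n : ℤ => ∃ D : Divisor K F, ω ∈ weilOmega D ∧ Divisor.degree D = n)
    ⟨c', fun z ⟨D, hD, hz⟩ => hz ▸ (hbd D hD).le⟩ ⟨_, D0, h0, rfl⟩
  refine ⟨W, hW, fun D hD => ?_⟩
  have h1 := weilOmega_sup hW hD
  have h2 := hmax _ ⟨W ⊔ D, h1, rfl⟩
  rw [← hWn] at h2
  have h3 := eq_of_le_of_degree_le hfin (le_sup_left : W ≤ W ⊔ D) h2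
  rw [h3]
  exact le_sup_right

omit hfin hR [HasPrincipalDivisors K F] [Nonempty (Place K F)] in
theorem max_divisor_twist {ω : Module.Dual K ↥(repartitions K F)} {W : Divisor K F}
    (hW : ω ∈ weilOmega W) (hmax : ∀ D, ω ∈ weilOmega D → D ≤ W)
    {x : F} (hx : x ≠ 0) {E : Divisor K F} (hE : ∀ v, E v = v.ord x) :
    twistMap ω x ∈ weilOmega (W + E) ∧ ∀ D, twistMap ω x ∈ weilOmega D → D ≤ W + E := by
  refine ⟨twistMap_mem_weilOmega hx hE hW, fun D hD => ?_⟩
  have hE' : ∀ v, (-E) v = v.ord x⁻¹ := fun v => by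
    rw [Finsupp.neg_apply, hE v, v.ord_inv]
  have h1 := twistMap_mem_weilOmega (inv_ne_zero hx) hE' hD
  rw [twistMap_twistMap, mul_inv_cancel₀ hx, twistMap_one] at h1
  have h2 := hmax _ h1
  rw [Finsupp.le_def] at h2 ⊢
  intro v
  have := h2 v
  rw [Finsupp.add_apply, Finsupp.neg_apply] at this
  rw [Finsupp.add_apply]
  omega

omit hR [Nonempty (Place K F)] hfin in
theorem map_twistMap_le_weilOmega {ω : Module.Dual K ↥(repartitions K F)} {D : Divisor K F}
    (hω : ω ∈ weilOmega D) (B : Divisor K F) :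
    (riemannRochSpace (D - B)).map (twistMap ω) ≤ weilOmega B := by
  rintro _ ⟨x, hx, rfl⟩
  by_cases hx0 : x = 0
  · rw [hx0, map_zero]; exact zero_mem _
  obtain ⟨E, hE, -⟩ := HasPrincipalDivisors.exists_divisor (K := K) x hx0
  refine weilOmega_anti ?_ (twistMap_mem_weilOmega hx0 hE hω)
  rw [Finsupp.le_def]
  intro v
  rw [Finsupp.add_apply, hE v]
  rcases (mem_riemannRochSpace_iff.mp hx) v with h | h
  · exact absurd h hx0
  · rw [Finsupp.sub_apply] at h; omega

omit hR [Nonempty (Place K F)] [HasPrincipalDivisors K F] hfin in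
theorem finrank_map_twistMap {ω : Module.Dual K ↥(repartitions K F)} (hω : ω ≠ 0)
    (D : Divisor K F) :
    Module.finrank K ((riemannRochSpace D).map (twistMap ω)) = ell D :=
  (Submodule.equivMapOfInjective (twistMap ω) (twistMap_injective hω)
    (riemannRochSpace D)).finrank_eq.symm

/-- the space of Weil differentials is one-dimensional over `F`. -/
theorem exists_twist_eq {ω₁ ω₂ : Module.Dual K ↥(repartitions K F)} (h1 : ω₁ ≠ 0) (h2 : ω₂ ≠ 0)
    {D₁ D₂ : Divisor K F} (hD1 : ω₁ ∈ weilOmega D₁) (hD2 : ω₂ ∈ weilOmega D₂) :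
    ∃ x : F, x ≠ 0 ∧ ω₂ = twistMap ω₁ x := by
  classical
  let P : Place K F := Classical.arbitrary _
  haveI := hfin P
  have hP : (1 : ℤ) ≤ P.deg := by exact_mod_cast place_deg_pos P
  set g : ℤ := ((genusFF K F : ℕ) : ℤ) with hg
  set m : ℕ := 3 * genusFF K F + (Divisor.degree D₁).natAbs + (Divisor.degree D₂).natAbs + 1
    with hm
  set B : Divisor K F := -Finsupp.single P (m : ℤ) with hB
  have hdegB : Divisor.degree B = -(m * P.deg) := by
    rw [hB, map_neg, Divisor.degree_single]
  have hneg : Divisor.degree B < 0 := by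
    rw [hdegB]
    have h1m : 1 ≤ m := by rw [hm]; omega
    have : (1 : ℤ) ≤ m := by exact_mod_cast h1m
    nlinarith
  have hell0 : ell B = 0 := by
    unfold ell
    rw [riemannRochSpace_eq_bot_of_degree_neg hneg]
    exact finrank_bot K F
  have hrr := riemann_roch_H1 hfin c hR B
  rw [hell0, hdegB] at hrr
  haveI := finite_H1 hfin c hR B
  haveI := finite_weilOmega B
  have hΩ := finrank_weilOmega B
  set S₁ := (riemannRochSpace (D₁ - B)).map (twistMap ω₁) with hS1
  set S₂ := (riemannRochSpace (D₂ - B)).map (twistMap ω₂) with hS2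
  have hle1 : S₁ ≤ weilOmega B := map_twistMap_le_weilOmega hD1 B
  have hle2 : S₂ ≤ weilOmega B := map_twistMap_le_weilOmega hD2 B
  have hf1 : Module.finrank K S₁ = ell (D₁ - B) := finrank_map_twistMap h1 _
  have hf2 : Module.finrank K S₂ = ell (D₂ - B) := finrank_map_twistMap h2 _
  have hr1 := riemann_inequality hfin c hR (D₁ - B)
  have hr2 := riemann_inequality hfin c hR (D₂ - B)
  rw [map_sub, hdegB] at hr1 hr2
  have hsup : Module.finrank K ↥(S₁ ⊔ S₂) ≤ Module.finrank K (weilOmega B) :=
    Submodule.finrank_mono (sup_le hle1 hle2)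
  haveI : Module.Finite K S₁ := Submodule.finiteDimensional_of_le hle1
  haveI : Module.Finite K S₂ := Submodule.finiteDimensional_of_le hle2
  have hsi := Submodule.finrank_sup_add_finrank_inf_eq S₁ S₂
  have hpos : 0 < Module.finrank K ↥(S₁ ⊓ S₂) := by
    have e0 : (0 : ℤ) ≤ ell (0 : Divisor K F) := Int.natCast_nonneg _
    have e1 := le_abs_self (Divisor.degree D₁)
    have e2 := neg_abs_le (Divisor.degree D₁)
    have e3 := neg_abs_le (Divisor.degree D₂)
    have e4 : (m : ℤ) = 3 * g + |Divisor.degree D₁| + |Divisor.degree D₂| + 1 := by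
      rw [hm, hg]; push_cast; ring
    have e5 : (m : ℤ) ≤ m * P.deg := by nlinarith [Int.natCast_nonneg m]
    have e6 : (Module.finrank K ↥(S₁ ⊔ S₂) : ℤ) + Module.finrank K ↥(S₁ ⊓ S₂)
        = Module.finrank K S₁ + Module.finrank K S₂ := by exact_mod_cast hsi
    have e7 : (Module.finrank K ↥(S₁ ⊔ S₂) : ℤ) ≤ Module.finrank K (weilOmega B) := by
      exact_mod_cast hsup
    rw [hΩ] at e7
    rw [hf1, hf2] at e6
    have : (0 : ℤ) < Module.finrank K ↥(S₁ ⊓ S₂) := by omega
    exact_mod_cast this
  have hnt : Nontrivial ↥(S₁ ⊓ S₂) := Module.finrank_pos_iff.mp hpos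
  obtain ⟨⟨η, hη⟩, hη0⟩ := exists_ne (0 : ↥(S₁ ⊓ S₂))
  have hη0' : η ≠ 0 := fun h => hη0 (Subtype.ext h)
  obtain ⟨⟨x₁, -, hx1⟩, ⟨x₂, -, hx2⟩⟩ := hη
  have hx20 : x₂ ≠ 0 := by
    rintro rfl
    rw [map_zero] at hx2
    exact hη0' hx2.symm
  have hx10 : x₁ ≠ 0 := by
    rintro rfl
    rw [map_zero] at hx1
    exact hη0' hx1.symm
  refine ⟨x₁ * x₂⁻¹, mul_ne_zero hx10 (inv_ne_zero hx20), ?_⟩
  have e1 : twistMap (twistMap ω₂ x₂) x₂⁻¹ = ω₂ := by
    rw [twistMap_twistMap, mul_inv_cancel₀ hx20, twistMap_one]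
  have hx2' : (twistMap ω₂) x₂ = η := hx2
  have hx1' : (twistMap ω₁) x₁ = η := hx1
  rw [← e1, hx2', ← hx1', twistMap_twistMap]

/-- a nonzero Weil differential exists. -/
theorem exists_weil_ne_zero :
    ∃ (D : Divisor K F) (ω : Module.Dual K ↥(repartitions K F)), ω ∈ weilOmega D ∧ ω ≠ 0 := by
  classical
  let P : Place K F := Classical.arbitrary _
  haveI := hfin P
  have hP : (1 : ℤ) ≤ P.deg := by exact_mod_cast place_deg_pos P
  set m : ℕ := ell (0 : Divisor K F) + 1 with hm
  set B : Divisor K F := -Finsupp.single P (m : ℤ) with hB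
  have hdegB : Divisor.degree B = -(m * P.deg) := by
    rw [hB, map_neg, Divisor.degree_single]
  have hneg : Divisor.degree B < 0 := by
    rw [hdegB]
    have h1m : 1 ≤ m := by rw [hm]; omega
    have : (1 : ℤ) ≤ m := by exact_mod_cast h1m
    nlinarith
  have hell0 : ell B = 0 := by
    unfold ell
    rw [riemannRochSpace_eq_bot_of_degree_neg hneg]
    exact finrank_bot K F
  have hrr := riemann_roch_H1 hfin c hR B
  rw [hell0, hdegB] at hrr
  haveI := finite_H1 hfin c hR B
  haveI := finite_weilOmega B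
  have hΩ := finrank_weilOmega B
  have hpos : 0 < Module.finrank K (weilOmega B) := by
    have e5 : (m : ℤ) ≤ m * P.deg := by nlinarith [Int.natCast_nonneg m]
    have e6 : (m : ℤ) = ell (0 : Divisor K F) + 1 := by rw [hm]; push_cast; rfl
    have e7 : (0 : ℤ) ≤ genusFF K F := Int.natCast_nonneg _
    have : (0 : ℤ) < Module.finrank K (weilOmega B) := by rw [hΩ]; omega
    exact_mod_cast this
  have hnt : Nontrivial ↥(weilOmega B) := Module.finrank_pos_iff.mp hpos
  obtain ⟨⟨η, hη⟩, hη0⟩ := exists_ne (0 : ↥(weilOmega B))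
  exact ⟨B, η, hη, fun h => hη0 (Subtype.ext h)⟩

/-- **Duality**: there is a (canonical) divisor `W` with `i(D) = l(W - D)` for all `D`. -/
theorem exists_canonical_divisor :
    ∃ W : Divisor K F, ∀ D : Divisor K F, Module.finrank K (H1 D) = ell (W - D) := by
  obtain ⟨D0, ω, hω0, hω⟩ := exists_weil_ne_zero hfin c hR
  obtain ⟨W, hW, hmax⟩ := exists_max_divisor hfin c hR hω hω0
  refine ⟨W, fun D => ?_⟩
  haveI := finite_H1 hfin c hR D
  have key : weilOmega D = (riemannRochSpace (W - D)).map (twistMap ω) := by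
    apply le_antisymm
    · intro η hη
      by_cases hη0 : η = 0
      · rw [hη0]; exact zero_mem _
      obtain ⟨x, hx, rfl⟩ := exists_twist_eq hfin c hR hω hη0 hW hη
      obtain ⟨E, hE, -⟩ := HasPrincipalDivisors.exists_divisor (K := K) x hx
      have h1 := (max_divisor_twist hW hmax hx hE).2 D hη
      refine ⟨x, mem_riemannRochSpace_iff.mpr fun v => ?_, rfl⟩
      right
      have := Finsupp.le_def.mp h1 v
      rw [Finsupp.add_apply, hE v] at this
      rw [Finsupp.sub_apply]
      omega
    · exact map_twistMap_le_weilOmega hW D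
  rw [← finrank_weilOmega D, ← finrank_map_twistMap hω (W - D), key]

/-- **Riemann-Roch** (full form, arbitrary constant field `K`): a canonical divisor `W` with
`deg W = 2g - 2 l(0)`, `l(W) = g` and `l(D) = deg D + l(0) - g + l(W - D)`. -/
theorem riemann_roch_full :
    ∃ W : Divisor K F,
      Divisor.degree W = 2 * (genusFF K F : ℤ) - 2 * ell (0 : Divisor K F) ∧
      ell W = genusFF K F ∧
      (∀ D : Divisor K F, Module.finrank K (H1 D) = ell (W - D)) ∧
      ∀ D : Divisor K F, (ell D : ℤ)
        = Divisor.degree D + ell (0 : Divisor K F) - genusFF K F + ell (W - D) := by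
  obtain ⟨W, hW⟩ := exists_canonical_divisor hfin c hR
  have h0 : genusFF K F = ell W := by
    have := hW 0
    rw [sub_zero] at this
    exact this
  have hWW := hW W
  rw [sub_self] at hWW
  have hrrW := riemann_roch_H1 hfin c hR W
  rw [hWW] at hrrW
  refine ⟨W, by rw [h0] at hrrW ⊢; omega, h0.symm, hW, fun D => ?_⟩
  have := riemann_roch_H1 hfin c hR D
  rw [hW D] at this
  omega

/-- non-special range: `l(D) = deg D + l(0) - g` when `deg D > 2g - 2 l(0)`. -/
theorem ell_eq_of_degree_gt (D : Divisor K F)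
    (hD : 2 * (genusFF K F : ℤ) - 2 * ell (0 : Divisor K F) < Divisor.degree D) :
    (ell D : ℤ) = Divisor.degree D + ell (0 : Divisor K F) - genusFF K F := by
  obtain ⟨W, hdeg, -, -, hrr⟩ := riemann_roch_full hfin c hR
  have hneg : Divisor.degree (W - D) < 0 := by rw [map_sub]; omega
  have h0 : ell (W - D) = 0 := by
    unfold ell
    rw [riemannRochSpace_eq_bot_of_degree_neg hneg]
    exact finrank_bot K F
  have := hrr D
  rw [h0] at this
  omega

end duality

end Fermat.Agent.S17.FND.RR68
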