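import Mathlib
import Fermat.Prelude.Def_AlgebraicCurve_Repartitions
import Fermat.Prelude.Def_AlgebraicCurve_IsCurveOver
import Fermat.Agent.S24.A564.SumOrd
import Fermat.Agent.S17.FND.RR68.Concrete
import Fermat.Agent.S17.FND.RR68.Weil

/-!
# Riemann-Roch over an algebraically closed field of ANY characteristic, for a separating
element `x` (helper68, S27)

`exists_finset_zeros_sum_ord_sep` is the landed S24 proof (helper4344 / helper564,
`Fermat/Agent/S24/A564/SumOrd.lean`) with `[CharZero K]` replaced by separability of `F / K(s)`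
(the only place where characteristic zero was used).
-/

set_option autoImplicit false

namespace Fermat.Agent.S17.FND.RR68

open AlgebraicCurve IsDedekindDomain WithZero IntermediateField Fermat.Agent.S24.A564.SO
open scoped IntermediateField.algebraAdjoinAdjoin

variable {K F : Type*} [Field K] [Field F] [Algebra K F]

theorem exists_finset_zeros_sum_ord_sep [IsAlgClosed K] (s : F) (hs : Transcendental K s)
    [FiniteDimensional K⟮s⟯ F] [Algebra.IsSeparable K⟮s⟯ F] :
    ∃ S : Finset (Place K F), (∀ v, v ∈ S ↔ 0 < v.ord s) ∧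
      ∑ v ∈ S, v.ord s = (Module.finrank K⟮s⟯ F : ℤ) := by
  classical
  let R := Algebra.adjoin K {s}
  let B := integralClosure R F
  haveI : IsPrincipalIdealRing R := adjoin_isPrincipalIdealRing s
  haveI : IsDedekindDomain B := IsIntegralClosure.isDedekindDomain R K⟮s⟯ F B
  haveI : IsFractionRing B F := IsIntegralClosure.isFractionRing_of_finite_extension R K⟮s⟯ F B
  haveI : Module.Finite R B := IsIntegralClosure.finite R K⟮s⟯ F B
  let sR : R := ⟨s, Algebra.self_mem_adjoin_singleton K s⟩
  let p : Ideal R := Ideal.span {sR}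
  haveI hpmax : p.IsMaximal := adjoin_span_isMaximal s hs
  have hs0 : s ≠ 0 := by
    rintro rfl
    exact hs (isAlgebraic_zero)
  have hsR0 : sR ≠ 0 := fun h => hs0 (congrArg Subtype.val h)
  have hp0 : p ≠ ⊥ := by
    rw [Ne, Ideal.span_singleton_eq_bot]
    exact hsR0
  have hsum := Ideal.sum_ramification_inertia B K⟮s⟯ F (p := p) hp0
  have hmemP : ∀ P ∈ IsDedekindDomain.primesOverFinset p B, P.IsPrime ∧ P.LiesOver p := fun P hP =>
    (IsDedekindDomain.mem_primesOverFinset_iff hp0 _).mp hP
  have hPne : ∀ P ∈ IsDedekindDomain.primesOverFinset p B, P ≠ ⊥ := fun P hP =>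
    haveI := (hmemP P hP).2
    Ideal.ne_bot_of_liesOver_of_ne_bot hp0 P
  let Φ : {P // P ∈ IsDedekindDomain.primesOverFinset p B} → Place K F := fun P =>
    Place.ofHeightOneSpectrum (K := K) ⟨P.1, (hmemP P.1 P.2).1, hPne P.1 P.2⟩
  have hsB : algebraMap R B sR ≠ 0 := by
    intro h
    exact hs0 (congrArg (algebraMap B F) h)
  have hsF : algebraMap B F (algebraMap R B sR) = s := rfl
  have hord : ∀ P : {P // P ∈ IsDedekindDomain.primesOverFinset p B},
      (Φ P).ord s = (p.ramificationIdx' P.1 : ℤ) := by
    intro P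
    show (Place.ofHeightOneSpectrum (K := K) (F := F) _).ord s = _
    rw [Place_ofHeightOneSpectrum_ord]
    exact ramificationIdx'_eq_neg_log_valuation (F := F) sR ⟨P.1, (hmemP P.1 P.2).1, hPne P.1 P.2⟩ hsB
  have hinert : ∀ P ∈ IsDedekindDomain.primesOverFinset p B, p.inertiaDeg' P = 1 := fun P hP => by
    haveI := (hmemP P hP).1
    haveI := (hmemP P hP).2
    exact inertiaDeg'_eq_one_of_isAlgClosed (K := K) p P (adjoin_exists_const_sub_mem s)
  have hΦinj : Function.Injective Φ := by
    intro P P' h
    have := Place_ofHeightOneSpectrum_injective (K := K) (F := F) h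
    exact Subtype.ext (congrArg HeightOneSpectrum.asIdeal this)
  refine ⟨(IsDedekindDomain.primesOverFinset p B).attach.image Φ, ?_, ?_⟩
  · intro v
    constructor
    · intro hv
      obtain ⟨P, -, rfl⟩ := Finset.mem_image.mp hv
      rw [hord]
      have hne : p.ramificationIdx' P.1 ≠ 0 := by
        haveI := (hmemP P.1 P.2).1
        haveI := (hmemP P.1 P.2).2
        exact Ideal.IsDedekindDomain.ramificationIdx'_ne_zero_of_liesOver P.1 hp0
      exact_mod_cast Nat.pos_of_ne_zero hne
    · intro hv
      have hsmem : s ∈ v.toValuationSubring := Place_mem_of_ord_nonneg v hv.le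
      have hR : R ≤ Place_subalgebra v := Place_adjoin_le v hsmem
      have hB : ∀ b : B, algebraMap B F b ∈ v.toValuationSubring := fun b =>
        Place_mem_of_isIntegral v hR b.2
      obtain ⟨w, rfl⟩ := Place_exists_heightOneSpectrum_of_le v hB
      have hsw : algebraMap R B sR ∈ w.asIdeal := by
        rw [← HeightOneSpectrum.valuation_lt_one_iff_mem (K := F)]
        show w.valuation F s < 1
        rw [Place_ofHeightOneSpectrum_ord] at hv
        have hne : w.valuation F s ≠ 0 := (Valuation.ne_zero_iff _).mpr hs0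
        rw [← exp_log hne, ← exp_zero, exp_lt_exp]
        omega
      have hover : w.asIdeal.LiesOver p := by
        refine ⟨?_⟩
        refine Ideal.IsMaximal.eq_of_le hpmax ?_ ?_
        · exact (Ideal.IsPrime.under R w.asIdeal).ne_top
        · rw [Ideal.span_le, Set.singleton_subset_iff]
          exact hsw
      have hmem : w.asIdeal ∈ IsDedekindDomain.primesOverFinset p B :=
        (IsDedekindDomain.mem_primesOverFinset_iff hp0 _).mpr ⟨w.isPrime, hover⟩
      exact Finset.mem_image.mpr ⟨⟨w.asIdeal, hmem⟩, Finset.mem_attach _ _, rfl⟩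
  · rw [Finset.sum_image (fun x _ y _ h => hΦinj h)]
    have h1 : ∑ P ∈ (IsDedekindDomain.primesOverFinset p B).attach, (Φ P).ord s
        = ∑ P ∈ (IsDedekindDomain.primesOverFinset p B).attach,
            ((p.ramificationIdx' P.1 * p.inertiaDeg' P.1 : ℕ) : ℤ) :=
      Finset.sum_congr rfl fun P _ => by rw [hord, hinert P.1 P.2, mul_one]
    rw [h1, Finset.sum_attach (IsDedekindDomain.primesOverFinset p B)
      (fun P => ((p.ramificationIdx' P * p.inertiaDeg' P : ℕ) : ℤ)), ← Nat.cast_sum, hsum]

theorem zeros_sum_of_adjoin_eq_sep [IsAlgClosed K] (s : F) (hs : Transcendental K s)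
    (L : IntermediateField K F) (h : K⟮s⟯ = L) [FiniteDimensional L F] [Algebra.IsSeparable L F] :
    ∃ S : Finset (Place K F), (∀ v, v ∈ S ↔ 0 < v.ord s) ∧
      ∑ v ∈ S, v.ord s = (Module.finrank L F : ℤ) := by
  subst h
  exact exists_finset_zeros_sum_ord_sep s hs

theorem adjoinSimple_inv_eq_sep (x : F) : K⟮x⁻¹⟯ = K⟮x⟯ := by
  apply le_antisymm
  · exact adjoin_simple_le_iff.mpr (inv_mem (mem_adjoin_simple_self K x))
  · refine adjoin_simple_le_iff.mpr ?_
    have := inv_mem (mem_adjoin_simple_self K x⁻¹)
    simpa using this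

theorem transcendental_inv_sep {x : F} (hx : Transcendental K x) : Transcendental K x⁻¹ := by
  intro h
  apply hx
  simpa using h.inv

/-- the pole divisor of a separating `x` has degree `[F : K(x)]` (alg. closed, any char). -/
theorem exists_pole_divisor_sep [IsAlgClosed K]
    (hfin : ∀ v : Place K F, Module.Finite K v.ResidueField)
    (x : F) (hx : Transcendental K x) [FiniteDimensional K⟮x⟯ F] [Algebra.IsSeparable K⟮x⟯ F] :
    ∃ B : Divisor K F, (∀ v, B v = max 0 (-v.ord x)) ∧
      Divisor.degree B = Module.finrank K⟮x⟯ F ∧ Nonempty (Place K F) := by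
  classical
  obtain ⟨S, hS, hsum⟩ := zeros_sum_of_adjoin_eq_sep x⁻¹ (transcendental_inv_sep hx) K⟮x⟯
    (adjoinSimple_inv_eq_sep x)
  have hS' : ∀ v, v ∈ S ↔ v.ord x < 0 := fun v => by
    rw [hS v, v.ord_inv]; omega
  let f : Place K F → ℤ := fun v => max 0 (-v.ord x)
  have hf : ∀ v, f v ≠ 0 → v ∈ S := by
    intro v hv
    rw [hS' v]
    by_contra hcon
    apply hv
    show max 0 (-v.ord x) = 0
    exact max_eq_left (by omega)
  refine ⟨Finsupp.onFinset S f hf, fun v => Finsupp.onFinset_apply, ?_, ?_⟩
  · have hdeg1 : ∀ v : Place K F, (v.deg : ℤ) = 1 := fun v => by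
      haveI := hfin v
      exact_mod_cast v.deg_eq_one_of_isAlgClosed_of_finite
    simp only [Divisor.degree, Finsupp.liftAddHom_apply, AddMonoidHom.coe_mulRight]
    rw [Finsupp.sum, ← hsum]
    have hsupp : (Finsupp.onFinset S f hf).support ⊆ S := Finsupp.support_onFinset_subset
    rw [Finset.sum_subset hsupp (fun v _ hv => by
      rw [Finsupp.notMem_support_iff.mp hv, zero_mul])]
    refine Finset.sum_congr rfl fun v hv => ?_
    rw [Finsupp.onFinset_apply, hdeg1 v, mul_one, v.ord_inv]
    have := (hS' v).mp hv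
    show max 0 (-v.ord x) = -v.ord x
    exact max_eq_right (by omega)
  · have hpos : 0 < Module.finrank K⟮x⟯ F := Module.finrank_pos
    have hne : S.Nonempty := by
      by_contra hcon
      rw [Finset.not_nonempty_iff_eq_empty] at hcon
      rw [hcon, Finset.sum_empty] at hsum
      have : (0 : ℤ) < Module.finrank K⟮x⟯ F := by exact_mod_cast hpos
      omega
    exact ⟨hne.choose⟩

/-- **Riemann-Roch** over an algebraically closed constant field of any characteristic, for a
function field with principal divisors, finite residue fields and a separating element `x`. -/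
theorem riemann_roch_sep [IsAlgClosed K]
    (hfin : ∀ v : Place K F, Module.Finite K v.ResidueField) [HasPrincipalDivisors K F]
    (x : F) (hx : Transcendental K x) [FiniteDimensional K⟮x⟯ F] [Algebra.IsSeparable K⟮x⟯ F] :
    (∀ D : Divisor K F, Module.Finite K (riemannRochSpace D)) ∧
    (∀ D : Divisor K F, Module.Finite K (H1 D)) ∧
    Module.finrank K (riemannRochSpace (0 : Divisor K F)) = 1 ∧
    ∃ W : Divisor K F,
      Divisor.degree W = 2 * (genusFF K F : ℤ) - 2 ∧
      Module.finrank K (riemannRochSpace W) = genusFF K F ∧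
      (∀ D : Divisor K F,
        Module.finrank K (H1 D) = Module.finrank K (riemannRochSpace (W - D))) ∧
      ∀ D : Divisor K F, (Module.finrank K (riemannRochSpace D) : ℤ)
        = Divisor.degree D + 1 - genusFF K F
          + Module.finrank K (riemannRochSpace (W - D)) := by
  obtain ⟨B, hB, hdeg, hne⟩ := exists_pole_divisor_sep hfin x hx
  haveI := hne
  obtain ⟨c, hR⟩ := exists_riemann_bound hfin x hx B hB hdeg
  have h0 : ell (0 : Divisor K F) = 1 := ell_zero_eq_one hfin
  obtain ⟨W, h1, h2, h3, h4⟩ := riemann_roch_full hfin c hR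
  rw [h0] at h1 h4
  exact ⟨fun D => finite_riemannRochSpace hfin D, fun D => finite_H1 hfin c hR D, h0,
    W, by simpa using h1, h2, h3, fun D => by
      have := h4 D
      simp only [Nat.cast_one] at this
      exact this⟩

end Fermat.Agent.S17.FND.RR68
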