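import Mathlib
import Fermat.Prelude.Def_AlgebraicCurve_Repartitions
import Fermat.Prelude.Def_AlgebraicCurve_IsCurveOver
import Fermat.Agent.S17.FND.RR68.Sep

/-!
# Riemann-Roch for curves over an algebraically closed field of characteristic zero (helper68, S27)
-/

set_option autoImplicit false

namespace Fermat.Agent.S17.FND.RR68

open AlgebraicCurve IntermediateField

variable {K F : Type*} [Field K] [Field F] [Algebra K F]

/-- **Riemann-Roch** for a curve over an algebraically closed field of characteristic zero with a
transcendental element `x` such that `F / K(x)` is finite: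
canonical divisor `W`, `deg W = 2g - 2`, `l(W) = g`, `i(D) = l(W - D)`,
`l(D) = deg D + 1 - g + l(W - D)`, with `g = genusFF K F`, `l = finrank L(D)`. -/
theorem riemann_roch_charZero [IsAlgClosed K] [CharZero K] [IsCurveOver K F]
    (x : F) (hx : Transcendental K x) [FiniteDimensional K⟮x⟯ F] :
    (∀ D : Divisor K F, Module.Finite K (riemannRochSpace D)) ∧
    (∀ D : Divisor K F, Module.Finite K (H1 D)) ∧
    Module.finrank K (riemannRochSpace (0 : Divisor K F)) = 1 ∧
    ∃ W : Divisor K F,
      Divisor.degree W = 2 * (genusFF K F : ℤ) - 2 ∧
      Module.finrank K (riemannRochSpace W) = genusFF K F ∧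
      (∀ D : Divisor K F,
        Module.finrank K (H1 D) = Module.finrank K (riemannRochSpace (W - D))) ∧
      ∀ D : Divisor K F, (Module.finrank K (riemannRochSpace D) : ℤ)
        = Divisor.degree D + 1 - genusFF K F
          + Module.finrank K (riemannRochSpace (W - D)) := by
  haveI : HasPrincipalDivisors K F := IsCurveOver.hasPrincipalDivisors
  exact riemann_roch_sep IsCurveOver.finiteResidue x hx

end Fermat.Agent.S17.FND.RR68
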